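import Fermat.Agent.LT.T3.M.ClosedM

/-!
# Row LT, tower T3, station T3.18M (architect helper14): THE EXPLICIT FORM
# (local factors visible; hint of helper797, note 18148 (1))

OFF-MAIN.  Complete proofs, nothing assumed.  ADDITIVE (new names only); the closed station
T3.18M (`M/ClosedM.lean`) is unchanged.

The outputs `EKOpExistGenMC`, `AbelSatakeGenMC` are EXISTENCE statements.  For the matched pairs of
tower T7 (`ConstrC`, `ConstrQRC732`) the local factors must be VISIBLE (upstairs) or CHOSEN by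
the consumer (downstairs: the `T6`-matches of the factors upstairs).  Here:

* `IsPurePairM`, `pairSpanM 𝔫 P`: the span of the pure pairs `(pureCoordM A β, pureFnM f₀ F)` with
  `IsSatakePair v (f₀ v) (A v)` (`v ∈ P`), `IsCplxTest (F w)`, `IsCplxSmooth (F w)`,
  `HasAbelN (F w) (β w)`;
* `IsPurePairMS μc κc`, `pairSpanMS μc κc 𝔫 P ≤ pairSpanM 𝔫 P`: in addition `R(F w)` acts on the
  functions of parameter `0` by `κc ∫ β w` (the pairs which `AS.AbelCplxSmoothC` delivers);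
* **`PairExistMC`, `pairExistM_c`**: there are `μc`, `κc ≠ 0` such that every `Φ ∈ SymSpanM K P`
  has an `f` with `(Φ, f) ∈ pairSpanMS μc κc 𝔫 P` (THE STATION'S FUNCTIONS ARE OF THIS FORM);
* **`ExplicitMC K`, `explicitM_c`**: `κ, Δ, κ₀ ≠ 0` depend on the frame only; every member of
  `pairSpanM` is `IsASPairX` (regularity, bi-invariance, support, `N`-integral `κ Φ(Δ + j c₀)`,
  scalar operator on every joint eigenfunction of the sphere means); every member of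
  `pairSpanMS μc κc` is `IsASPairG` with `κ₀ = κ₁ κc^{r}` (in addition the scalar is
  `κ₀ Φ^(z₁, z₂)` at parameter `0`);
* **`EKOfPairMC K`, `ekOfPairM_c`**: if `(Φ, f) ∈ pairSpanM` and `Φ` telescopes along
  `c₀ = coordTorM K P e α`, then `f` is a T5 test function of trivial type, Eisenstein-killing
  with Eisenstein-killing adjoint, supported at `P ∪ S_∞`, with operator scalars `c(z₁, z₂, m)`;
  if `(Φ, f) ∈ pairSpanMS μc κc`, then `c(z₁, z₂, m) = κ₀ Φ^(z₁, z₂)` at parameter `0`.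
-/

set_option autoImplicit false
set_option linter.style.haveILetI false

open IsDedekindDomain NumberField MeasureTheory
open Fermat.Agent.LT.H556.A0

noncomputable section

namespace Fermat.Agent.LT.T3.M

open Fermat.Agent.LT.T3.AS

variable (K : Type) [Field K] [NumberField K]

/-! ## 0. Pure pairs and their spans -/

/-- A PURE PAIR (complex places): a symmetric pure tensor on the coordinate group and a pure
tensor on `GL₂(𝔸_K)` with local Satake pairs at `P` and local Abel pairs at infinity. -/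
def IsPurePairM (𝔫 : Ideal (𝓞 K)) (P : Finset (HeightOneSpectrum (𝓞 K)))
    (p : (CoordM K P → ℂ) × (G K → ℂ)) : Prop :=
  ∃ (A : HeightOneSpectrum (𝓞 K) → ℤ × ℤ → ℂ) (β : InfinitePlace K → ℝ × ℝ → ℂ)
    (f₀ : ∀ v : HeightOneSpectrum (𝓞 K), GL (Fin 2) (v.adicCompletion K) → ℂ)
    (F : InfinitePlace K → GL (Fin 2) ℂ → ℂ),
    (∀ v, IsSymFin (A v)) ∧ (∀ w, IsSymBump (β w)) ∧
    (∀ v ∈ P, IsSatakePair v (f₀ v) (A v)) ∧
    (∀ w, IsCplxTest (F w)) ∧ (∀ w, IsCplxSmooth (F w)) ∧ (∀ w, HasAbelN (F w) (β w)) ∧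
    p = (pureCoordM K P A β, pureFnM K 𝔫 P f₀ F)

/-- The span of the pure pairs. -/
def pairSpanM (𝔫 : Ideal (𝓞 K)) (P : Finset (HeightOneSpectrum (𝓞 K))) :
    Submodule ℂ ((CoordM K P → ℂ) × (G K → ℂ)) :=
  Submodule.span ℂ {p | IsPurePairM K 𝔫 P p}

/-- A PURE PAIR WITH THE SCALAR OF PARAMETER `0`: in addition `R(F w)` acts on the functions of
parameter `0` by `κc ∫ β w`. -/
def IsPurePairMS {mc : MeasurableSpace (GL (Fin 2) ℂ)} (μc : Measure (GL (Fin 2) ℂ)) (κc : ℂ)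
    (𝔫 : Ideal (𝓞 K)) (P : Finset (HeightOneSpectrum (𝓞 K)))
    (p : (CoordM K P → ℂ) × (G K → ℂ)) : Prop :=
  ∃ (A : HeightOneSpectrum (𝓞 K) → ℤ × ℤ → ℂ) (β : InfinitePlace K → ℝ × ℝ → ℂ)
    (f₀ : ∀ v : HeightOneSpectrum (𝓞 K), GL (Fin 2) (v.adicCompletion K) → ℂ)
    (F : InfinitePlace K → GL (Fin 2) ℂ → ℂ),
    (∀ v, IsSymFin (A v)) ∧ (∀ w, IsSymBump (β w)) ∧
    (∀ v ∈ P, IsSatakePair v (f₀ v) (A v)) ∧
    (∀ w, IsCplxTest (F w)) ∧ (∀ w, IsCplxSmooth (F w)) ∧ (∀ w, HasAbelN (F w) (β w)) ∧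
    (∀ w, ActsBy μc (F w) (κc * ∫ x : ℝ × ℝ, β w x)) ∧
    p = (pureCoordM K P A β, pureFnM K 𝔫 P f₀ F)

/-- The span of the pure pairs with the scalar of parameter `0`. -/
def pairSpanMS {mc : MeasurableSpace (GL (Fin 2) ℂ)} (μc : Measure (GL (Fin 2) ℂ)) (κc : ℂ)
    (𝔫 : Ideal (𝓞 K)) (P : Finset (HeightOneSpectrum (𝓞 K))) :
    Submodule ℂ ((CoordM K P → ℂ) × (G K → ℂ)) :=
  Submodule.span ℂ {p | IsPurePairMS K μc κc 𝔫 P p}

variable {K}

theorem IsPurePairMS.toM {mc : MeasurableSpace (GL (Fin 2) ℂ)} {μc : Measure (GL (Fin 2) ℂ)}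
    {κc : ℂ} {𝔫 : Ideal (𝓞 K)} {P : Finset (HeightOneSpectrum (𝓞 K))}
    {p : (CoordM K P → ℂ) × (G K → ℂ)} (h : IsPurePairMS K μc κc 𝔫 P p) :
    IsPurePairM K 𝔫 P p := by
  obtain ⟨A, β, f₀, F, h1, h2, h3, h4, h5, h6, -, h8⟩ := h
  exact ⟨A, β, f₀, F, h1, h2, h3, h4, h5, h6, h8⟩

theorem pairSpanMS_le {mc : MeasurableSpace (GL (Fin 2) ℂ)} (μc : Measure (GL (Fin 2) ℂ))
    (κc : ℂ) (𝔫 : Ideal (𝓞 K)) (P : Finset (HeightOneSpectrum (𝓞 K))) :
    pairSpanMS K μc κc 𝔫 P ≤ pairSpanM K 𝔫 P :=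
  Submodule.span_mono fun _ hp => IsPurePairMS.toM hp

/-- A pure pair from explicit local factors belongs to `pairSpanM`. -/
theorem mem_pairSpanM_pure (𝔫 : Ideal (𝓞 K)) (P : Finset (HeightOneSpectrum (𝓞 K)))
    (A : HeightOneSpectrum (𝓞 K) → ℤ × ℤ → ℂ) (β : InfinitePlace K → ℝ × ℝ → ℂ)
    (f₀ : ∀ v : HeightOneSpectrum (𝓞 K), GL (Fin 2) (v.adicCompletion K) → ℂ)
    (F : InfinitePlace K → GL (Fin 2) ℂ → ℂ)
    (hA : ∀ v, IsSymFin (A v)) (hβ : ∀ w, IsSymBump (β w))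
    (hp : ∀ v ∈ P, IsSatakePair v (f₀ v) (A v))
    (hF : ∀ w, IsCplxTest (F w)) (hs : ∀ w, IsCplxSmooth (F w))
    (hN : ∀ w, HasAbelN (F w) (β w)) :
    (pureCoordM K P A β, pureFnM K 𝔫 P f₀ F) ∈ pairSpanM K 𝔫 P :=
  Submodule.subset_span ⟨A, β, f₀, F, hA, hβ, hp, hF, hs, hN, rfl⟩

/-- A finite linear combination of pure pairs with explicit local factors belongs to
`pairSpanM`. -/
theorem mem_pairSpanM_sum (𝔫 : Ideal (𝓞 K)) (P : Finset (HeightOneSpectrum (𝓞 K)))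
    {ι : Type} (s : Finset ι) (c : ι → ℂ)
    (A : ι → HeightOneSpectrum (𝓞 K) → ℤ × ℤ → ℂ) (β : ι → InfinitePlace K → ℝ × ℝ → ℂ)
    (f₀ : ι → ∀ v : HeightOneSpectrum (𝓞 K), GL (Fin 2) (v.adicCompletion K) → ℂ)
    (F : ι → InfinitePlace K → GL (Fin 2) ℂ → ℂ)
    (hA : ∀ i ∈ s, ∀ v, IsSymFin (A i v)) (hβ : ∀ i ∈ s, ∀ w, IsSymBump (β i w))
    (hp : ∀ i ∈ s, ∀ v ∈ P, IsSatakePair v (f₀ i v) (A i v))
    (hF : ∀ i ∈ s, ∀ w, IsCplxTest (F i w)) (hs : ∀ i ∈ s, ∀ w, IsCplxSmooth (F i w))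
    (hN : ∀ i ∈ s, ∀ w, HasAbelN (F i w) (β i w)) :
    (∑ i ∈ s, c i • pureCoordM K P (A i) (β i), ∑ i ∈ s, c i • pureFnM K 𝔫 P (f₀ i) (F i))
      ∈ pairSpanM K 𝔫 P := by
  have h : (∑ i ∈ s, c i • pureCoordM K P (A i) (β i),
      ∑ i ∈ s, c i • pureFnM K 𝔫 P (f₀ i) (F i))
      = ∑ i ∈ s, c i • ((pureCoordM K P (A i) (β i), pureFnM K 𝔫 P (f₀ i) (F i)) :
          (CoordM K P → ℂ) × (G K → ℂ)) := by
    refine Prod.ext ?_ ?_
    · rw [Prod.fst_sum]
      rfl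
    · rw [Prod.snd_sum]
      rfl
  rw [h]
  refine Submodule.sum_mem _ fun i hi => Submodule.smul_mem _ _ ?_
  exact mem_pairSpanM_pure 𝔫 P (A i) (β i) (f₀ i) (F i) (hA i hi) (hβ i hi) (hp i hi)
    (hF i hi) (hs i hi) (hN i hi)

variable (K)

/-! ## 1. The station's functions are members of `pairSpanMS` -/

/-- **Existence of visible pairs.**  There are `μc`, `κc ≠ 0` such that every `Φ ∈ SymSpanM K P`
is the first component of a member of `pairSpanMS μc κc 𝔫 P`, for every `𝔫`, `P`. -/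
def PairExistMC : Prop :=
  letI : MeasurableSpace (GL (Fin 2) ℂ) := borel (GL (Fin 2) ℂ)
  ∃ μc : Measure (GL (Fin 2) ℂ), μc.IsHaarMeasure ∧ ∃ κc : ℂ, κc ≠ 0 ∧
    ∀ (𝔫 : Ideal (𝓞 K)) (P : Finset (HeightOneSpectrum (𝓞 K))) (Φ : CoordM K P → ℂ),
      Φ ∈ SymSpanM K P → ∃ f : G K → ℂ, (Φ, f) ∈ pairSpanMS K μc κc 𝔫 P

theorem pairExistM_of (h1 : SatakeLocC K) (h2 : AbelCplxSmoothC) : PairExistMC K := by
  let _ : MeasurableSpace (GL (Fin 2) ℂ) := borel (GL (Fin 2) ℂ)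
  obtain ⟨μc, hμc, κc, hκc, hAbel⟩ := h2
  refine ⟨μc, hμc, κc, hκc, fun 𝔫 P Φ hΦ => ?_⟩
  induction hΦ using Submodule.span_induction with
  | zero => exact ⟨0, Submodule.zero_mem _⟩
  | add Φ₁ Φ₂ _ _ ih₁ ih₂ =>
    obtain ⟨f₁, hf₁⟩ := ih₁
    obtain ⟨f₂, hf₂⟩ := ih₂
    exact ⟨f₁ + f₂, Submodule.add_mem _ hf₁ hf₂⟩
  | smul c Φ _ ih =>
    obtain ⟨f, hf⟩ := ih
    exact ⟨c • f, Submodule.smul_mem _ c hf⟩
  | mem Φ hΦ =>
    classical
    obtain ⟨A', β, hA', hβ, hΦ⟩ := hΦ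
    set A : HeightOneSpectrum (𝓞 K) → ℤ × ℤ → ℂ :=
      fun v => if h : v ∈ P then A' ⟨v, h⟩ else 0 with hAdef
    have hAA' : (fun v : P => A v) = A' := by
      funext v
      simp only [hAdef, dif_pos v.2, Subtype.coe_eta]
    have hAsym : ∀ v, IsSymFin (A v) := by
      intro v
      by_cases hv : v ∈ P
      · simp only [hAdef, dif_pos hv]
        exact hA' ⟨v, hv⟩
      · simp only [hAdef, dif_neg hv]
        exact ⟨by simp, fun _ _ => rfl⟩
    have hΦ' : Φ = pureCoordM K P A β := by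
      rw [hΦ]
      unfold pureCoordM
      rw [hAA']
    subst hΦ'
    choose f₀ hpair using fun v : HeightOneSpectrum (𝓞 K) => h1 v (A v) (hAsym v)
    choose F hF1 hFs hF2 hF3 using fun w : InfinitePlace K => hAbel (β w) (hβ w)
    exact ⟨pureFnM K 𝔫 P f₀ F, Submodule.subset_span
      ⟨A, β, f₀, F, hAsym, hβ, fun v _ => hpair v, hF1, hFs, hF2, hF3, rfl⟩⟩

/-- **Existence of visible pairs, UNCONDITIONAL.** -/
theorem pairExistM_c : PairExistMC K :=
  pairExistM_of K (satakeLoc_closed K) abelCplxSmooth_closed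

/-! ## 2. The induction predicate of the explicit form -/

/-- The induction predicate of the explicit form: `f` is a test function for `Φ`, acting by
scalars on the joint eigenfunctions of the sphere means. -/
structure IsASPairX {mG : MeasurableSpace (G K)} {mA : MeasurableSpace (Adl K)}
    (μ : Measure (G K)) (ν : Measure (Adl K)) (𝔫 : Ideal (𝓞 K))
    (P : Finset (HeightOneSpectrum (𝓞 K))) (e : HeightOneSpectrum (𝓞 K) → ℕ) (α : Kˣ)
    (κ : G K → G K → ℂ) (Δ : G K → G K → CoordM K P)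
    (Φ : CoordM K P → ℂ) (f : G K → ℂ) : Prop where
  cont : Continuous f
  supp : HasCompactSupport f
  bi_inv : IsBiInv K 𝔫 f
  supp_at : IsSuppAtM K 𝔫 P f
  smooth : IsSmoothInf K f
  n_integrable : ∀ (g g' : G K) (j : ℤ),
    Integrable (fun x => f (g⁻¹ * unip K x * torK K α ^ j * g')) ν
  n_int : ∀ (g g' : G K) (j : ℤ),
    ∫ x, f (g⁻¹ * unip K x * torK K α ^ j * g') ∂ν
      = κ g g' * Φ (Δ g g' + j • coordTorM K P e α)
  gen : ∃ c : (HeightOneSpectrum (𝓞 K) → ℂ) → (HeightOneSpectrum (𝓞 K) → ℂ) →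
      (InfinitePlace K → ℝ → ℂ) → ℂ,
    ∀ (φ : G K → ℂ) (m : InfinitePlace K → ℝ → ℂ), IsMeanLevel K 𝔫 m φ →
    ∀ a b z₁ z₂ : HeightOneSpectrum (𝓞 K) → ℂ,
      (∀ v ∈ P, IsHeckeEigenAt φ v (a v) (b v)) →
      (∀ v ∈ P, z₁ v + z₂ v = a v) → (∀ v ∈ P, z₁ v * z₂ v = b v) →
      (∀ v ∈ P, b v ≠ 0) →
      ∀ g : G K, Rop K μ f φ g = c z₁ z₂ m * φ g

variable {K}

section Linear

variable {mG : MeasurableSpace (G K)} {mA : MeasurableSpace (Adl K)}
  {μ : Measure (G K)} {ν : Measure (Adl K)} {𝔫 : Ideal (𝓞 K)}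
  {P : Finset (HeightOneSpectrum (𝓞 K))} {e : HeightOneSpectrum (𝓞 K) → ℕ}
  {α : Kˣ} {κ : G K → G K → ℂ} {Δ : G K → G K → CoordM K P} {κ₀ : ℂ}

theorem IsASPairX.zero : IsASPairX K μ ν 𝔫 P e α κ Δ 0 0 where
  cont := continuous_const
  supp := HasCompactSupport.zero
  bi_inv := ⟨fun _ _ _ => ⟨rfl, rfl⟩, fun _ _ _ _ => ⟨rfl, rfl⟩⟩
  supp_at := fun _ hh => absurd rfl hh
  smooth := IsSmoothInf.zero
  n_integrable := fun g g' j => by
    have : (fun x => (0 : G K → ℂ) (g⁻¹ * unip K x * torK K α ^ j * g')) = fun _ => 0 := rfl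
    rw [this]
    exact integrable_zero _ _ _
  n_int := fun g g' j => by simp
  gen := ⟨fun _ _ _ => 0, fun φ m _ a b z₁ z₂ _ _ _ _ g => by simp [Rop]⟩

theorem IsASPairX.add [OpensMeasurableSpace (G K)] [IsFiniteMeasureOnCompacts μ]
    {Φ₁ Φ₂ : CoordM K P → ℂ} {f₁ f₂ : G K → ℂ}
    (h₁ : IsASPairX K μ ν 𝔫 P e α κ Δ Φ₁ f₁) (h₂ : IsASPairX K μ ν 𝔫 P e α κ Δ Φ₂ f₂) :
    IsASPairX K μ ν 𝔫 P e α κ Δ (Φ₁ + Φ₂) (f₁ + f₂) where
  cont := h₁.cont.add h₂.cont
  supp := h₁.supp.add h₂.supp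
  bi_inv := by
    refine ⟨fun u hu h => ⟨?_, ?_⟩, fun w k hk h => ⟨?_, ?_⟩⟩
    · simp only [Pi.add_apply, (h₁.bi_inv.1 u hu h).1, (h₂.bi_inv.1 u hu h).1]
    · simp only [Pi.add_apply, (h₁.bi_inv.1 u hu h).2, (h₂.bi_inv.1 u hu h).2]
    · simp only [Pi.add_apply, (h₁.bi_inv.2 w k hk h).1, (h₂.bi_inv.2 w k hk h).1]
    · simp only [Pi.add_apply, (h₁.bi_inv.2 w k hk h).2, (h₂.bi_inv.2 w k hk h).2]
  supp_at := fun h hh => by
    by_cases h1 : f₁ h = 0
    · have h2 : f₂ h ≠ 0 := fun h2 => hh (by simp [h1, h2])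
      exact h₂.supp_at h h2
    · exact h₁.supp_at h h1
  smooth := h₁.smooth.add h₂.smooth
  n_integrable := fun g g' j => (h₁.n_integrable g g' j).add (h₂.n_integrable g g' j)
  n_int := fun g g' j => by
    simp only [Pi.add_apply]
    rw [integral_add (h₁.n_integrable g g' j) (h₂.n_integrable g g' j), h₁.n_int, h₂.n_int]
    ring
  gen := by
    obtain ⟨c₁, ho₁⟩ := h₁.gen
    obtain ⟨c₂, ho₂⟩ := h₂.gen
    refine ⟨fun z₁ z₂ m => c₁ z₁ z₂ m + c₂ z₁ z₂ m,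
      fun φ m hφ a b z₁ z₂ he hz₁ hz₂ hb g => ?_⟩
    have e₁ := ho₁ φ m hφ a b z₁ z₂ he hz₁ hz₂ hb g
    have e₂ := ho₂ φ m hφ a b z₁ z₂ he hz₁ hz₂ hb g
    unfold Rop at e₁ e₂ ⊢
    have : (fun h => φ (g * h) * (f₁ + f₂) h)
        = fun h => φ (g * h) * f₁ h + φ (g * h) * f₂ h := by
      funext h
      simp only [Pi.add_apply]
      ring
    rw [this, integral_add (rop_integrable μ hφ.cont h₁.cont h₁.supp g)
      (rop_integrable μ hφ.cont h₂.cont h₂.supp g), e₁, e₂]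
    ring

theorem IsASPairX.smul {Φ : CoordM K P → ℂ} {f : G K → ℂ}
    (h : IsASPairX K μ ν 𝔫 P e α κ Δ Φ f) (c : ℂ) :
    IsASPairX K μ ν 𝔫 P e α κ Δ (c • Φ) (c • f) where
  cont := h.cont.const_smul c
  supp := h.supp.mono fun x hx => by
    rw [Function.mem_support] at hx ⊢
    intro h0
    exact hx (by simp [h0])
  bi_inv := by
    refine ⟨fun u hu y => ⟨?_, ?_⟩, fun w k hk y => ⟨?_, ?_⟩⟩
    · simp only [Pi.smul_apply, (h.bi_inv.1 u hu y).1]
    · simp only [Pi.smul_apply, (h.bi_inv.1 u hu y).2]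
    · simp only [Pi.smul_apply, (h.bi_inv.2 w k hk y).1]
    · simp only [Pi.smul_apply, (h.bi_inv.2 w k hk y).2]
  supp_at := fun y hy => by
    have h1 : f y ≠ 0 := fun h1 => hy (by simp [h1])
    exact h.supp_at y h1
  smooth := h.smooth.smul c
  n_integrable := fun g g' j => (h.n_integrable g g' j).const_mul c
  n_int := fun g g' j => by
    simp only [Pi.smul_apply, smul_eq_mul]
    rw [integral_const_mul, h.n_int]
    ring
  gen := by
    obtain ⟨c₁, ho₁⟩ := h.gen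
    refine ⟨fun z₁ z₂ m => c * c₁ z₁ z₂ m, fun φ m hφ a b z₁ z₂ he hz₁ hz₂ hb g => ?_⟩
    have e₁ := ho₁ φ m hφ a b z₁ z₂ he hz₁ hz₂ hb g
    unfold Rop at e₁ ⊢
    have : (fun y => φ (g * y) * (c • f) y) = fun y => c * (φ (g * y) * f y) := by
      funext y
      simp only [Pi.smul_apply, smul_eq_mul]
      ring
    rw [this, integral_const_mul, e₁]
    ring

/-- The predicate of the station implies the predicate of the explicit form. -/
theorem IsASPairG.toX {Φ : CoordM K P → ℂ} {f : G K → ℂ}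
    (h : IsASPairG K μ ν 𝔫 P e α κ Δ κ₀ Φ f) : IsASPairX K μ ν 𝔫 P e α κ Δ Φ f where
  cont := h.base.cont
  supp := h.base.supp
  bi_inv := h.base.bi_inv
  supp_at := h.base.supp_at
  smooth := h.base.smooth
  n_integrable := h.base.n_integrable
  n_int := h.base.n_int
  gen := by
    obtain ⟨c, -, hc⟩ := h.gen
    exact ⟨c, hc⟩

end Linear

variable (K)

/-! ## 3. Every member of the spans is an Abel--Satake pair -/

/-- **THE EXPLICIT FORM of the Abel--Satake pair (complex places).**  `κ, Δ, κ₀` depend on the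
frame (and on `μc`, `κc`) only. -/
def ExplicitMC : Prop :=
  letI : MeasurableSpace (Adl K) := borel (Adl K)
  letI : MeasurableSpace (G K) := borel (G K)
  letI : MeasurableSpace (GL (Fin 2) ℂ) := borel (GL (Fin 2) ℂ)
  (∀ w : InfinitePlace K, w.IsComplex) →
  ∀ μ : Measure (G K), μ.IsHaarMeasure →
  ∀ μc : Measure (GL (Fin 2) ℂ), μc.IsHaarMeasure → ∀ κc : ℂ, κc ≠ 0 →
  ∀ ν : Measure (Adl K), ν.IsAddHaarMeasure →
  ∀ (𝔫 : Ideal (𝓞 K)) (P : Finset (HeightOneSpectrum (𝓞 K)))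
    (e : HeightOneSpectrum (𝓞 K) → ℕ) (a₀ : 𝓞 K) (α : Kˣ), FrameM K 𝔫 P e a₀ α →
    ∃ (κ : G K → G K → ℂ) (Δ : G K → G K → CoordM K P) (κ₀ : ℂ), κ₀ ≠ 0 ∧
      (∀ p : (CoordM K P → ℂ) × (G K → ℂ), p ∈ pairSpanM K 𝔫 P →
        IsASPairX K μ ν 𝔫 P e α κ Δ p.1 p.2) ∧
      ∀ p : (CoordM K P → ℂ) × (G K → ℂ), p ∈ pairSpanMS K μc κc 𝔫 P →
        IsASPairG K μ ν 𝔫 P e α κ Δ κ₀ p.1 p.2

/-- The explicit form from the leaves G.1, M.2, M.3, G.2 and the node `NIntMC`. -/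
theorem explicitM_of (hG : MeanActsC) (hft : FtPureC) (h3 : PureRegMC K) (h4 : NIntMC K)
    (h5 : ROpMeanMC K) : ExplicitMC K := by
  let _ : MeasurableSpace (Adl K) := borel (Adl K)
  let _ : MeasurableSpace (G K) := borel (G K)
  let _ : MeasurableSpace (GL (Fin 2) ℂ) := borel (GL (Fin 2) ℂ)
  have _ : BorelSpace (G K) := ⟨rfl⟩
  intro hcx μ hμ μc hμc κc hκc ν hν 𝔫 P e a₀ α hfr
  obtain ⟨κ, Δ, hN⟩ := h4 hcx ν hν 𝔫 P e a₀ α hfr
  obtain ⟨κ₁, hκ₁, hR⟩ := h5 hcx μ hμ μc hμc 𝔫 hfr.level P hfr.prime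
  refine ⟨κ, Δ, κ₁ * κc ^ Fintype.card (InfinitePlace K),
    mul_ne_zero hκ₁ (pow_ne_zero _ hκc), ?_, ?_⟩
  · -- the weak form
    intro p hp
    induction hp using Submodule.span_induction with
    | zero => exact IsASPairX.zero
    | add p₁ p₂ _ _ ih₁ ih₂ => exact ih₁.add ih₂
    | smul c p _ ih => exact ih.smul c
    | mem p hp =>
      classical
      obtain ⟨A, β, f₀, F, hAsym, hβ, hpair, hF1, hFs, hF2, rfl⟩ := hp
      obtain ⟨r1, r2, r3, r4⟩ := h3 𝔫 hfr.level P hfr.prime f₀ F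
        (fun v hv => (hpair v hv).bi_inv) (fun v hv => (hpair v hv).fin_supp) hF1
      have hNN := hN A β f₀ F (fun v hv => (hpair v hv).bi_inv)
        (fun v hv => (hpair v hv).fin_supp) (fun v hv => (hpair v hv).n_int) hF1 hF2
      choose Cg hCg using fun (w : InfinitePlace K) (m' : ℝ → ℂ) => hG μc hμc (F w) (hF1 w) m'
      exact
        { cont := r1
          supp := r2
          bi_inv := r3
          supp_at := r4
          smooth := pureSmoothM 𝔫 P f₀ F hFs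
          n_integrable := fun g g' j => (hNN g g' j).1
          n_int := fun g g' j => (hNN g g' j).2
          gen := ⟨fun z₁ z₂ m => κ₁ * (∏ v ∈ P, laurent (A v) (z₁ v) (z₂ v))
              * ∏ w : InfinitePlace K, Cg w (m w),
            fun φ m hφ a b z₁ z₂ he hz₁ hz₂ hb g =>
              hR A (fun w => Cg w (m w)) m f₀ F (fun v hv => (hpair v hv).bi_inv)
                (fun v hv => (hpair v hv).fin_supp) (fun v hv => (hpair v hv).eigen) hF1
                (fun w => hCg w (m w)) φ hφ a b z₁ z₂ he hz₁ hz₂ hb g⟩ }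
  · -- the form with the scalar of parameter `0`
    intro p hp
    induction hp using Submodule.span_induction with
    | zero => exact IsASPairG.zero
    | add p₁ p₂ _ _ ih₁ ih₂ => exact ih₁.add ih₂
    | smul c p _ ih => exact ih.smul c
    | mem p hp =>
      classical
      obtain ⟨A, β, f₀, F, hAsym, hβ, hpair, hF1, hFs, hF2, hF3, rfl⟩ := hp
      obtain ⟨r1, r2, r3, r4⟩ := h3 𝔫 hfr.level P hfr.prime f₀ F
        (fun v hv => (hpair v hv).bi_inv) (fun v hv => (hpair v hv).fin_supp) hF1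
      have hNN := hN A β f₀ F (fun v hv => (hpair v hv).bi_inv)
        (fun v hv => (hpair v hv).fin_supp) (fun v hv => (hpair v hv).n_int) hF1 hF2
      choose Cg hCg using fun (w : InfinitePlace K) (m' : ℝ → ℂ) => hG μc hμc (F w) (hF1 w) m'
      set Cw : InfinitePlace K → (ℝ → ℂ) → ℂ := fun w m' =>
        if ∀ d : ℝ, 0 < d → m' d = sphM d then κc * ∫ x : ℝ × ℝ, β w x else Cg w m' with hCw
      have hCwa : ∀ (w : InfinitePlace K) (m' : ℝ → ℂ), ActsByMean μc (F w) m' (Cw w m') := by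
        intro w m'
        by_cases hm : ∀ d : ℝ, 0 < d → m' d = sphM d
        · simp only [hCw, if_pos hm]
          exact actsByMean_of_actsBy hm (hF3 w)
        · simp only [hCw, if_neg hm]
          exact hCg w m'
      have hft' : ∀ z₁ z₂ : HeightOneSpectrum (𝓞 K) → ℂ,
          ftCoordM K P (pureCoordM K P A β) z₁ z₂
            = (∏ v ∈ P, laurent (A v) (z₁ v) (z₂ v))
              * ∏ w : InfinitePlace K, ∫ x : ℝ × ℝ, β w x := by
        intro z₁ z₂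
        unfold ftCoordM pureCoordM
        rw [hft P (InfinitePlace K) (fun v : P => A v) β (fun i => (hAsym i).1)
          (fun v : P => z₁ v) (fun v : P => z₂ v),
          Finset.prod_coe_sort P (fun v => laurent (A v) (z₁ v) (z₂ v))]
      have hopG : ∀ (φ : G K → ℂ) (m : InfinitePlace K → ℝ → ℂ), IsMeanLevel K 𝔫 m φ →
          ∀ a b z₁ z₂ : HeightOneSpectrum (𝓞 K) → ℂ,
            (∀ v ∈ P, IsHeckeEigenAt φ v (a v) (b v)) →
            (∀ v ∈ P, z₁ v + z₂ v = a v) → (∀ v ∈ P, z₁ v * z₂ v = b v) →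
            (∀ v ∈ P, b v ≠ 0) →
            ∀ g : G K, Rop K μ (pureFnM K 𝔫 P f₀ F) φ g
              = (κ₁ * (∏ v ∈ P, laurent (A v) (z₁ v) (z₂ v))
                  * ∏ w : InfinitePlace K, Cw w (m w)) * φ g :=
        fun φ m hφ a b z₁ z₂ he hz₁ hz₂ hb g =>
          hR A (fun w => Cw w (m w)) m f₀ F (fun v hv => (hpair v hv).bi_inv)
            (fun v hv => (hpair v hv).fin_supp) (fun v hv => (hpair v hv).eigen) hF1
            (fun w => hCwa w (m w)) φ hφ a b z₁ z₂ he hz₁ hz₂ hb g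
      have hcsph : ∀ (z₁ z₂ : HeightOneSpectrum (𝓞 K) → ℂ) (m : InfinitePlace K → ℝ → ℂ),
          IsSph0Param K m →
          κ₁ * (∏ v ∈ P, laurent (A v) (z₁ v) (z₂ v)) * ∏ w : InfinitePlace K, Cw w (m w)
            = κ₁ * κc ^ Fintype.card (InfinitePlace K)
              * ftCoordM K P (pureCoordM K P A β) z₁ z₂ := by
        intro z₁ z₂ m hm
        have e1 : ∀ w : InfinitePlace K, Cw w (m w) = κc * ∫ x : ℝ × ℝ, β w x := fun w => by
          simp only [hCw, if_pos (hm w)]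
        simp only [e1]
        rw [hft' z₁ z₂, Finset.prod_mul_distrib, Finset.prod_const, Finset.card_univ]
        ring
      refine ⟨?_, ?_⟩
      · refine
          { fin_m := ⟨Fintype.piFinset fun i : P => (hAsym i).1.toFinset, fun m hm x => ?_⟩
            int_x := fun m => ?_
            cont := r1
            supp := r2
            bi_inv := r3
            supp_at := r4
            smooth := pureSmoothM 𝔫 P f₀ F hFs
            n_integrable := fun g g' j => (hNN g g' j).1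
            n_int := fun g g' j => (hNN g g' j).2
            op := fun φ hφ a b z₁ z₂ he hz₁ hz₂ hb g => ?_ }
        · rw [Fintype.mem_piFinset, not_forall] at hm
          obtain ⟨i, hi⟩ := hm
          rw [Set.Finite.mem_toFinset, Function.mem_support, not_not] at hi
          have : ∏ v : P, A v (m v) = 0 := Finset.prod_eq_zero (Finset.mem_univ i) hi
          show (∏ v : P, A v (m v)) * ∏ w : InfinitePlace K, β w (x w) = 0
          rw [this, zero_mul]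
        · have : (fun x : InfinitePlace K → ℝ × ℝ => pureCoordM K P A β (m, x))
              = fun x => (∏ v : P, A v (m v)) * ∏ w : InfinitePlace K, β w (x w) := rfl
          show Integrable (fun x : InfinitePlace K → ℝ × ℝ => pureCoordM K P A β (m, x))
          rw [this]
          refine Integrable.const_mul ?_ _
          exact Integrable.fintype_prod (f := β) (μ := fun _ => volume) fun w =>
            (hβ w).1.continuous.integrable_of_hasCompactSupport (hβ w).2.1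
        · show Rop K μ (pureFnM K 𝔫 P f₀ F) φ g = _
          rw [hopG φ (fun _ => sphM) (isMeanLevel_of_sph0 K hcx hφ) a b z₁ z₂ he hz₁ hz₂ hb g,
            hcsph z₁ z₂ (fun _ => sphM) (fun _ _ _ => rfl)]
      · exact ⟨fun z₁ z₂ m => κ₁ * (∏ v ∈ P, laurent (A v) (z₁ v) (z₂ v))
            * ∏ w : InfinitePlace K, Cw w (m w), hcsph, hopG⟩

/-- **THE EXPLICIT FORM, UNCONDITIONAL.** -/
theorem explicitM_c : ExplicitMC K :=
  explicitM_of K meanActs_c (openM_c K).ftPure (openM_c K).pureReg (nIntM_c K) (rOpMeanM_c K)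

/-! ## 4. Eisenstein killing for a telescoping member of `pairSpanM` -/

/-- **EK FOR GIVEN LOCAL FACTORS (complex places).**  If `(Φ, f) ∈ pairSpanM` and `Φ`
telescopes along `c₀ = coordTorM K P e α`, then `f` is a T5 test function of trivial type,
Eisenstein-killing with Eisenstein-killing adjoint, supported at `P ∪ S_∞`, and acts by scalars
`c(z₁, z₂, m)` on the joint eigenfunctions of the sphere means; if `(Φ, f) ∈ pairSpanMS μc κc`,
the scalar at parameter `0` is `κ₀ Φ^(z₁, z₂)`. -/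
def EKOfPairMC : Prop :=
  letI : MeasurableSpace (G K) := borel (G K)
  letI : MeasurableSpace (GL (Fin 2) ℂ) := borel (GL (Fin 2) ℂ)
  (∀ w : InfinitePlace K, w.IsComplex) →
  ∀ μ : Measure (G K), μ.IsHaarMeasure →
  ∀ μc : Measure (GL (Fin 2) ℂ), μc.IsHaarMeasure → ∀ κc : ℂ, κc ≠ 0 →
  ∀ (𝔫 : Ideal (𝓞 K)) (P : Finset (HeightOneSpectrum (𝓞 K)))
    (e : HeightOneSpectrum (𝓞 K) → ℕ) (a₀ : 𝓞 K) (α : Kˣ), FrameM K 𝔫 P e a₀ α →
    ∃ κ₀ : ℂ, κ₀ ≠ 0 ∧
      ∀ (Φ : CoordM K P → ℂ) (f : G K → ℂ), (Φ, f) ∈ pairSpanM K 𝔫 P →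
        (∀ Δ : CoordM K P, HasSum (fun j : ℤ => Φ (Δ + j • coordTorM K P e α)) 0) →
        T5.IsTestFn 𝔫 T5.trivType f ∧ T5.IsEK μ f ∧ T5.IsEK μ (T5.adjointFn f) ∧
          IsSuppAtM K 𝔫 P f ∧
          ∃ c : (HeightOneSpectrum (𝓞 K) → ℂ) → (HeightOneSpectrum (𝓞 K) → ℂ) →
              (InfinitePlace K → ℝ → ℂ) → ℂ,
            ((Φ, f) ∈ pairSpanMS K μc κc 𝔫 P →
              ∀ (z₁ z₂ : HeightOneSpectrum (𝓞 K) → ℂ) (m : InfinitePlace K → ℝ → ℂ),
                IsSph0Param K m → c z₁ z₂ m = κ₀ * ftCoordM K P Φ z₁ z₂) ∧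
            ∀ (φ : G K → ℂ) (m : InfinitePlace K → ℝ → ℂ), IsMeanLevel K 𝔫 m φ →
            ∀ a b z₁ z₂ : HeightOneSpectrum (𝓞 K) → ℂ,
              (∀ v ∈ P, IsHeckeEigenAt φ v (a v) (b v)) →
              (∀ v ∈ P, z₁ v + z₂ v = a v) → (∀ v ∈ P, z₁ v * z₂ v = b v) →
              (∀ v ∈ P, b v ≠ 0) →
              ∀ g : G K, T5.Rconv μ f φ g = c z₁ z₂ m * φ g

/-- EK for given local factors from the explicit form and the closed leaves of T3. -/
theorem ekOfPairM_of (hX : ExplicitMC K) (hk : EKKillC K) (hs : EKStarC K)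
    (hν : InAddHaarC K) : EKOfPairMC K := by
  let _ : MeasurableSpace (Adl K) := borel (Adl K)
  let _ : MeasurableSpace (G K) := borel (G K)
  let _ : MeasurableSpace (GL (Fin 2) ℂ) := borel (GL (Fin 2) ℂ)
  intro hcx μ hμ μc hμc κc hκc 𝔫 P e a₀ α hfr
  obtain ⟨ν, hνH⟩ := hν
  obtain ⟨κ, Δ, κ₀, hκ₀, hall, hallS⟩ := hX hcx μ hμ μc hμc κc hκc ν hνH 𝔫 P e a₀ α hfr
  refine ⟨κ₀, hκ₀, fun Φ f hmem hΦsum => ?_⟩
  have hp := hall (Φ, f) hmem
  have hf := hp.cont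
  have hfc := hp.supp
  have hEK : IsEK K ν f α := by
    intro g g'
    have h1 : (fun j : ℤ => ∫ x, f (g⁻¹ * unip K x * torK K α ^ j * g') ∂ν)
        = fun j : ℤ => κ g g' * Φ (Δ g g' + j • coordTorM K P e α) := by
      funext j
      exact hp.n_int g g' j
    rw [h1]
    have h2 := (hΦsum (Δ g g')).mul_left (κ g g')
    rw [mul_zero] at h2
    exact h2
  have hstar : IsEK K ν (starG K f) α := hs ν hνH _ f hf hfc hEK
  have hsc : Continuous (starG K f) := by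
    unfold starG
    exact (Complex.continuous_conj).comp (hf.comp continuous_inv)
  have hscc : HasCompactSupport (starG K f) := by
    unfold starG
    have h1 : HasCompactSupport (fun h : G K => f h⁻¹) := by
      have := hfc.comp_homeomorph (Homeomorph.inv (G K))
      simpa [Function.comp_def] using this
    exact h1.comp_left (g := (starRingEnd ℂ)) (map_zero _)
  have hRT : ∀ (φ : G K → ℂ) (g : G K), T5.Rconv μ f φ g = Rop K μ f φ g := by
    intro φ g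
    unfold Rop T5.Rconv
    refine integral_congr_ae (Filter.Eventually.of_forall fun y => ?_)
    exact mul_comm _ _
  refine ⟨isTestFn_T5 K hf hfc hp.smooth hp.bi_inv,
    isEK_T5 K (ekOp_of_int K hk hμ hνH hf hfc hEK),
    isEK_T5 K (ekOp_of_int K hk hμ hνH hsc hscc hstar), hp.supp_at, ?_⟩
  classical
  by_cases hS : (Φ, f) ∈ pairSpanMS K μc κc 𝔫 P
  · obtain ⟨c, hc, hop⟩ := (hallS (Φ, f) hS).gen
    refine ⟨c, fun _ => hc, fun φ m hφ a b z₁ z₂ he hz₁ hz₂ hb g => ?_⟩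
    rw [hRT]
    exact hop φ m hφ a b z₁ z₂ he hz₁ hz₂ hb g
  · obtain ⟨c, hop⟩ := hp.gen
    refine ⟨c, fun h => absurd h hS, fun φ m hφ a b z₁ z₂ he hz₁ hz₂ hb g => ?_⟩
    rw [hRT]
    exact hop φ m hφ a b z₁ z₂ he hz₁ hz₂ hb g

/-- **EK FOR GIVEN LOCAL FACTORS, UNCONDITIONAL.** -/
theorem ekOfPairM_c : EKOfPairMC K :=
  ekOfPairM_of K (explicitM_c K) (ekKill_u K) (ekStar_u K) (inAddHaar_u K)

end Fermat.Agent.LT.T3.M

end
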