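import Fermat.Agent.LT.T3.M.Spec

/-!
# Row LT, tower T3, station T3.18M (architect helper14): GENERAL ARCHIMEDEAN PARAMETER

OFF-MAIN.  Definitions and frozen Props only (tops: `M/GenTop.lean`).  No hole, nothing assumed.
ADDITIVE (new names only); `M/Spec.lean` (sha256 bf15afa4) is unchanged.

## Why (request of helper797, `T7/Level2.lean`, clause `op_up` of `IsL2Data`, note #17385)

The spectral side of the trace identity runs over ALL cusp functions of the level, with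
arbitrary eigenvalue functions `m_w` of the sphere means at the infinite places
(`T7.MeanEig ψ w (C.m w)`), not only over the functions of parameter `0`.  The Eisenstein-killing
test function must act on every such joint eigenfunction by a scalar `c(a, b, m)`; the
non-vanishing is needed only when `m_w(d) = 4π d / sinh d` for `d > 0` (the class of `Φ`).

## The two new leaves

| leaf | Prop | model (closed) |
|---|---|---|
| G.1 | `MeanActsC` (MATHLIB + ASSpec; `GL₂(ℂ)` only) | `H315.AvgC` = K-average (helper694 `AvgCore`, helper203 `Cartan`, helper572 `UnitaryHaar`) |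
| G.2 | `ROpMeanMC K` | `AS.ROpC` (helper57) / `M.ROpMC` |

`ROpMC K` (M.4) is the case `m = sphM` of `ROpMeanMC K`: `rOpM_of_mean` in `M/GenTop.lean`.
-/

set_option autoImplicit false
set_option linter.style.haveILetI false

open IsDedekindDomain NumberField MeasureTheory
open Fermat.Agent.LT.H556.A0

noncomputable section

namespace Fermat.Agent.LT.T3.M

open Fermat.Agent.LT.T3.AS

/-! ## 1. The complex place -/

/-- The eigenvalue function of the sphere means on the functions of parameter `0`: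
`d ↦ 4π d / sinh d` (`= T7.sph0`, the constant of `A0.MeanValueComplex`). -/
def sphM : ℝ → ℂ := fun d => ((4 * Real.pi * (d / Real.sinh d) : ℝ) : ℂ)

/-- A function on `GL₂(ℂ)`: continuous, right invariant under `U(2)` and under the positive
scalars, eigenfunction of the sphere means with eigenvalue function `m`
(`AS.IsLocSph0` is the case `m = sphM`). -/
structure IsLocMean (m : ℝ → ℂ) (Ψ : GL (Fin 2) ℂ → ℂ) : Prop where
  cont : Continuous Ψ
  unitary : ∀ k y : GL (Fin 2) ℂ, IsUnitary2 k → Ψ (y * k) = Ψ y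
  scalar : ∀ (z : GL (Fin 2) ℂ) (r : ℝ), 0 < r →
    (z : Matrix (Fin 2) (Fin 2) ℂ) = Matrix.diagonal (fun _ => (r : ℂ)) →
    ∀ y : GL (Fin 2) ℂ, Ψ (y * z) = Ψ y
  mean : ∀ d : ℝ, 0 < d → ∀ Y : ℝ → ℝ → GL (Fin 2) ℂ,
    (∀ α β : ℝ, ((Y α β : GL (Fin 2) ℂ) : Matrix (Fin 2) (Fin 2) ℂ)
      = rotZ α * rotY β * torus d) →
    ∀ y : GL (Fin 2) ℂ,
      (∫ α in (0 : ℝ)..(2 * Real.pi), ∫ β in (0 : ℝ)..Real.pi,
          Ψ (y * Y α β) * ((Real.sin β : ℝ) : ℂ))
        = m d * Ψ y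

/-- `R(F)` acts on the eigenfunctions of the sphere means with eigenvalue function `m` by the
scalar `C`. -/
def ActsByMean {mc : MeasurableSpace (GL (Fin 2) ℂ)} (μc : Measure (GL (Fin 2) ℂ))
    (F : GL (Fin 2) ℂ → ℂ) (m : ℝ → ℂ) (C : ℂ) : Prop :=
  ∀ Ψ : GL (Fin 2) ℂ → ℂ, IsLocMean m Ψ → ∀ y : GL (Fin 2) ℂ,
    ∫ h, Ψ (y * h) * F h ∂μc = C * Ψ y

/-- **G.1 (complex place; K-average), MATHLIB + ASSpec.**  A continuous bi-`U(2)`-invariant
function of compact support acts on the eigenfunctions of the sphere means by a scalar.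
Proof (the K-average of helper694, `H315.AvgC`, with `m(d) / 4π` in place of `d / sinh d`):
`∫ Ψ(y h) F(h) dμ = ∫ A_{Ψ,y}(h) F(h) dμ`, `A_{Ψ,y}(h) = ∫_{U(2)} Ψ(y k h) dk`
(left invariance of `μ`, `F(k h) = F(h)`, Fubini with the Haar probability measure of `U(2)`:
`H315.UnitaryHaarC`, closed by helper572); Cartan `h = k₁ torus(d) z k₂` (`H315.CartanC`, closed by
helper203): `A_{Ψ,y}(h) = φ(h) Ψ(y)` with `φ(h) = m(d) / 4π` (`d > 0`), `= 1` (`d = 0`),
INDEPENDENT of `Ψ, y`.  If every `Ψ` of the class vanishes, `C = 0`; otherwise take `Ψ₀(y₀) ≠ 0`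
and `C = (∫ Ψ₀(y₀ h) F(h) dμ) / Ψ₀(y₀)`: then `A_{Ψ,y} = A_{Ψ₀,y₀} Ψ(y) / Ψ₀(y₀)` pointwise
(NO measurability of `m` is needed). -/
def MeanActsC : Prop :=
  letI : MeasurableSpace (GL (Fin 2) ℂ) := borel (GL (Fin 2) ℂ)
  ∀ μc : Measure (GL (Fin 2) ℂ), μc.IsHaarMeasure →
  ∀ F : GL (Fin 2) ℂ → ℂ, IsCplxTest F → ∀ m : ℝ → ℂ, ∃ C : ℂ, ActsByMean μc F m C

variable (K : Type) [Field K] [NumberField K]

/-! ## 2. The global class -/

/-- `φ` is an eigenfunction of the sphere means at the place `w` with eigenvalue function `m`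
(`= T7.MeanEig`, verbatim; `A0.MeanValueComplex` is the case `m = sphM`). -/
def MeanEigM (φ : G K → ℂ) (w : InfinitePlace K) (m : ℝ → ℂ) : Prop :=
  ∀ d : ℝ, 0 < d → ∀ Y : ℝ → ℝ → G K,
    (∀ α β : ℝ, IsLocalAtInf w (Y α β) ∧ infComp w (Y α β) = rotZ α * rotY β * torus d) →
    ∀ g : G K,
      (∫ α in (0 : ℝ)..(2 * Real.pi), ∫ β in (0 : ℝ)..Real.pi,
          φ (g * Y α β) * ((Real.sin β : ℝ) : ℂ)) = m d * φ g

/-- `φ` is continuous, right invariant under `U(𝔫)`, under the positive scalars and the maximal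
compact subgroups at infinity, and a joint eigenfunction of the sphere means with eigenvalue
functions `m_w` (`T3.IsSph0Level` is the case `m_w = sphM`, `K` totally complex). -/
structure IsMeanLevel (𝔫 : Ideal (𝓞 K)) (m : InfinitePlace K → ℝ → ℂ) (φ : G K → ℂ) :
    Prop where
  cont : Continuous φ
  level_inv : ∀ u : G K, InLevelGroup 𝔫 u → ∀ g : G K, φ (g * u) = φ g
  arch_scalar : ∀ (w : InfinitePlace K) (z : G K), IsArchPosScalar w z →
    ∀ g : G K, φ (g * z) = φ g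
  arch_compact : ∀ (w : InfinitePlace K) (k : G K), IsArchCompact w k →
    ∀ g : G K, φ (g * k) = φ g
  mean : ∀ w : InfinitePlace K, MeanEigM K φ w (m w)

/-- `m` is the eigenvalue function of parameter `0` at the positive radii. -/
def IsSph0Param (m : InfinitePlace K → ℝ → ℂ) : Prop :=
  ∀ (w : InfinitePlace K) (d : ℝ), 0 < d → m w d = sphM d

/-- **G.2 (the operator of a pure tensor on the joint eigenfunctions).**  As `ROpMC`, with
`ActsByMean` and `IsMeanLevel` in place of `ActsBy` and `IsSph0Level`.  Model: `AS.ROpC`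
(helper57): the local function `y ↦ φ(g ŷ)` at the infinite place `w` is `IsLocMean (m w)`. -/
def ROpMeanMC : Prop :=
  letI : MeasurableSpace (G K) := borel (G K)
  letI : MeasurableSpace (GL (Fin 2) ℂ) := borel (GL (Fin 2) ℂ)
  (∀ w : InfinitePlace K, w.IsComplex) →
  ∀ μ : Measure (G K), μ.IsHaarMeasure →
  ∀ μc : Measure (GL (Fin 2) ℂ), μc.IsHaarMeasure →
  ∀ 𝔫 : Ideal (𝓞 K), 𝔫 ≠ ⊥ → ∀ P : Finset (HeightOneSpectrum (𝓞 K)),
    (∀ v ∈ P, ¬ v.asIdeal ∣ 𝔫) →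
    ∃ κ₁ : ℂ, κ₁ ≠ 0 ∧
      ∀ (A : HeightOneSpectrum (𝓞 K) → ℤ × ℤ → ℂ) (C : InfinitePlace K → ℂ)
        (m : InfinitePlace K → ℝ → ℂ)
        (f₀ : ∀ v : HeightOneSpectrum (𝓞 K), GL (Fin 2) (v.adicCompletion K) → ℂ)
        (F : InfinitePlace K → GL (Fin 2) ℂ → ℂ),
        (∀ v ∈ P, IsBiIntInv v (f₀ v)) →
        (∀ v ∈ P, ∃ R : Finset (GL (Fin 2) (v.adicCompletion K)), IsRepSys v (f₀ v) R) →
        (∀ v ∈ P, HasSatakeEigen v (f₀ v) (A v)) →
        (∀ w, IsCplxTest (F w)) → (∀ w, ActsByMean μc (F w) (m w) (C w)) →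
        ∀ φ : G K → ℂ, IsMeanLevel K 𝔫 m φ →
        ∀ a b z₁ z₂ : HeightOneSpectrum (𝓞 K) → ℂ,
          (∀ v ∈ P, IsHeckeEigenAt φ v (a v) (b v)) →
          (∀ v ∈ P, z₁ v + z₂ v = a v) → (∀ v ∈ P, z₁ v * z₂ v = b v) → (∀ v ∈ P, b v ≠ 0) →
          ∀ g : G K, Rop K μ (pureFnM K 𝔫 P f₀ F) φ g
            = κ₁ * (∏ v ∈ P, laurent (A v) (z₁ v) (z₂ v)) * (∏ w : InfinitePlace K, C w) * φ g

/-! ## 3. The nodes and the output -/

/-- **T3.18a, multi-place, smooth, general archimedean parameter** (NODE; top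
`abelSatakeGenM_of`).  As `AbelSatakeSmoothMC`, and in addition `R(f)` acts on every joint
eigenfunction by a scalar `c(z₁, z₂, m)`, with `c = κ₀ Φ^(z₁, z₂)` when `m` is of parameter `0`. -/
def AbelSatakeGenMC : Prop :=
  letI : MeasurableSpace (Adl K) := borel (Adl K)
  letI : MeasurableSpace (G K) := borel (G K)
  (∀ w : InfinitePlace K, w.IsComplex) →
  ∀ μ : Measure (G K), μ.IsHaarMeasure → ∀ ν : Measure (Adl K), ν.IsAddHaarMeasure →
  ∀ (𝔫 : Ideal (𝓞 K)) (P : Finset (HeightOneSpectrum (𝓞 K)))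
    (e : HeightOneSpectrum (𝓞 K) → ℕ) (a₀ : 𝓞 K) (α : Kˣ), FrameM K 𝔫 P e a₀ α →
    ∃ (κ : G K → G K → ℂ) (Δ : G K → G K → CoordM K P) (κ₀ : ℂ), κ₀ ≠ 0 ∧
      ∀ Φ : CoordM K P → ℂ, Φ ∈ SymSpanM K P →
        ∃ f : G K → ℂ, Continuous f ∧ HasCompactSupport f ∧
          IsBiInv K 𝔫 f ∧ IsSuppAtM K 𝔫 P f ∧ IsSmoothInf K f ∧
          (∀ (g g' : G K) (j : ℤ),
            ∫ x, f (g⁻¹ * unip K x * torK K α ^ j * g') ∂ν
              = κ g g' * Φ (Δ g g' + j • coordTorM K P e α)) ∧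
          ∃ c : (HeightOneSpectrum (𝓞 K) → ℂ) → (HeightOneSpectrum (𝓞 K) → ℂ) →
              (InfinitePlace K → ℝ → ℂ) → ℂ,
            (∀ (z₁ z₂ : HeightOneSpectrum (𝓞 K) → ℂ) (m : InfinitePlace K → ℝ → ℂ),
              IsSph0Param K m → c z₁ z₂ m = κ₀ * ftCoordM K P Φ z₁ z₂) ∧
            ∀ (φ : G K → ℂ) (m : InfinitePlace K → ℝ → ℂ), IsMeanLevel K 𝔫 m φ →
            ∀ a b z₁ z₂ : HeightOneSpectrum (𝓞 K) → ℂ,
              (∀ v ∈ P, IsHeckeEigenAt φ v (a v) (b v)) →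
              (∀ v ∈ P, z₁ v + z₂ v = a v) → (∀ v ∈ P, z₁ v * z₂ v = b v) →
              (∀ v ∈ P, b v ≠ 0) →
              ∀ g : G K, Rop K μ f φ g = c z₁ z₂ m * φ g

/-- **THE OUTPUT of station T3.18M for the Supply node of T7** (operator form, smooth, general
archimedean parameter).  As `EKOpExistSmoothMC`; `R(f) φ = c(a, b, m) φ` for EVERY joint
eigenfunction `φ` (`IsMeanLevel`, Hecke-eigen at every `v ∈ P`), and `c(a, b, m) ≠ 0` when
`GoodParamM` holds and `m` is of parameter `0` at the positive radii. -/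
def EKOpExistGenMC : Prop :=
  letI : MeasurableSpace (G K) := borel (G K)
  (∀ w : InfinitePlace K, w.IsComplex) →
  ∀ μ : Measure (G K), μ.IsHaarMeasure →
  ∀ (𝔫 : Ideal (𝓞 K)) (P : Finset (HeightOneSpectrum (𝓞 K)))
    (e : HeightOneSpectrum (𝓞 K) → ℕ) (a₀ : 𝓞 K),
    𝔫 ≠ ⊥ → P.Nonempty → (∀ v ∈ P, ¬ v.asIdeal ∣ 𝔫 ∧ 0 < e v) →
    Ideal.span {a₀} = ∏ v ∈ P, v.asIdeal ^ e v → a₀ - 1 ∈ 𝔫 →
    ∃ f : G K → ℂ, Continuous f ∧ HasCompactSupport f ∧ IsSmoothInf K f ∧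
      IsEKop K μ f ∧ IsEKop K μ (starG K f) ∧
      IsBiInv K 𝔫 f ∧ IsSuppAtM K 𝔫 P f ∧
      ∃ c : (HeightOneSpectrum (𝓞 K) → ℂ) → (HeightOneSpectrum (𝓞 K) → ℂ) →
          (InfinitePlace K → ℝ → ℂ) → ℂ,
        (∀ (a b : HeightOneSpectrum (𝓞 K) → ℂ) (m : InfinitePlace K → ℝ → ℂ),
          GoodParamM K P e a b → IsSph0Param K m → c a b m ≠ 0) ∧
        ∀ (φ : G K → ℂ) (m : InfinitePlace K → ℝ → ℂ), IsMeanLevel K 𝔫 m φ →
        ∀ a b : HeightOneSpectrum (𝓞 K) → ℂ,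
          (∀ v ∈ P, IsHeckeEigenAt φ v (a v) (b v)) →
          ∀ g : G K, Rop K μ f φ g = c a b m * φ g

end Fermat.Agent.LT.T3.M

end
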