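import Fermat.Agent.LT.T3.M.Spec
import Fermat.Agent.LT.T3.H732.EKAlg

/-!
# Row LT, tower T3, station T3.18M (architect helper14): THE PROVED TOPS (Abel--Satake level)

OFF-MAIN.  Complete proofs, nothing assumed.

* `abelSatakeSmoothM_of : AS.SatakeLocC K → AS.AbelCplxSmoothC → FtPureC → PureRegMC K →
  NIntMC K → ROpMC K → AbelSatakeSmoothMC K`   (the top of helper736 with `P` in place of `v₀`);
* `ekExistSmoothM_of : AbelSatakeSmoothMC K → EKCoreC → InScalarUnifC K → EKExistSmoothMC K`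
  (the proof of helper732 with `P` in place of `v₀`);
* `ekOpExistSmoothM_of : EKKillC K → EKStarC K → EKExistSmoothMC K → InAddHaarC K →
  EKOpExistSmoothMC K`.
-/

set_option autoImplicit false
set_option linter.style.haveILetI false

open IsDedekindDomain NumberField MeasureTheory
open Fermat.Agent.LT.H556.A0

noncomputable section

namespace Fermat.Agent.LT.T3.M

open Fermat.Agent.LT.T3.AS

/-! ## 0. Linearity of `ftCrd` -/

section Crd

variable {ι₁ ι₂ : Type} [Fintype ι₁] [Fintype ι₂]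

theorem ftCrd_summand_finite {Φ : Crd ι₁ ι₂ → ℂ}
    (h : ∃ M : Finset (ι₁ → ℤ × ℤ), ∀ m : ι₁ → ℤ × ℤ, m ∉ M →
      ∀ x : ι₂ → ℝ × ℝ, Φ (m, x) = 0) (z₁ z₂ : ι₁ → ℂ) :
    (Function.support fun m : ι₁ → ℤ × ℤ =>
      (∫ x : ι₂ → ℝ × ℝ, Φ (m, x)) * ∏ i, (z₁ i ^ (m i).1 * z₂ i ^ (m i).2)).Finite := by
  obtain ⟨M, hM⟩ := h
  refine M.finite_toSet.subset fun m hm => ?_
  by_contra hmM
  apply hm
  have : (fun x : ι₂ → ℝ × ℝ => Φ (m, x)) = fun _ => 0 := funext (hM m hmM)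
  simp [this]

theorem ftCrd_zero (z₁ z₂ : ι₁ → ℂ) : ftCrd (0 : Crd ι₁ ι₂ → ℂ) z₁ z₂ = 0 := by
  simp [ftCrd]

theorem ftCrd_add {Φ₁ Φ₂ : Crd ι₁ ι₂ → ℂ}
    (h₁ : ∃ M : Finset (ι₁ → ℤ × ℤ), ∀ m : ι₁ → ℤ × ℤ, m ∉ M →
      ∀ x : ι₂ → ℝ × ℝ, Φ₁ (m, x) = 0)
    (h₂ : ∃ M : Finset (ι₁ → ℤ × ℤ), ∀ m : ι₁ → ℤ × ℤ, m ∉ M →
      ∀ x : ι₂ → ℝ × ℝ, Φ₂ (m, x) = 0)
    (i₁ : ∀ m : ι₁ → ℤ × ℤ, Integrable (fun x : ι₂ → ℝ × ℝ => Φ₁ (m, x)))
    (i₂ : ∀ m : ι₁ → ℤ × ℤ, Integrable (fun x : ι₂ → ℝ × ℝ => Φ₂ (m, x)))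
    (z₁ z₂ : ι₁ → ℂ) :
    ftCrd (Φ₁ + Φ₂) z₁ z₂ = ftCrd Φ₁ z₁ z₂ + ftCrd Φ₂ z₁ z₂ := by
  unfold ftCrd
  rw [← finsum_add_distrib (ftCrd_summand_finite h₁ z₁ z₂) (ftCrd_summand_finite h₂ z₁ z₂)]
  refine finsum_congr fun m => ?_
  simp only [Pi.add_apply]
  rw [integral_add (i₁ m) (i₂ m)]
  ring

theorem ftCrd_smul (c : ℂ) (Φ : Crd ι₁ ι₂ → ℂ) (z₁ z₂ : ι₁ → ℂ) :
    ftCrd (c • Φ) z₁ z₂ = c * ftCrd Φ z₁ z₂ := by
  unfold ftCrd
  rw [mul_finsum]
  refine finsum_congr fun m => ?_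
  simp only [Pi.smul_apply, smul_eq_mul]
  rw [integral_const_mul]
  ring

end Crd

variable (K : Type) [Field K] [NumberField K]

/-! ## 1. The induction predicate -/

/-- The induction predicate: `f` is a test function for `Φ`. -/
structure IsASPairM {mG : MeasurableSpace (G K)} {mA : MeasurableSpace (Adl K)}
    (μ : Measure (G K)) (ν : Measure (Adl K)) (𝔫 : Ideal (𝓞 K))
    (P : Finset (HeightOneSpectrum (𝓞 K))) (e : HeightOneSpectrum (𝓞 K) → ℕ) (α : Kˣ)
    (κ : G K → G K → ℂ) (Δ : G K → G K → CoordM K P) (κ₀ : ℂ)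
    (Φ : CoordM K P → ℂ) (f : G K → ℂ) : Prop where
  fin_m : ∃ M : Finset (P → ℤ × ℤ), ∀ m : P → ℤ × ℤ, m ∉ M →
    ∀ x : InfinitePlace K → ℝ × ℝ, Φ (m, x) = 0
  int_x : ∀ m : P → ℤ × ℤ, Integrable (fun x : InfinitePlace K → ℝ × ℝ => Φ (m, x))
  cont : Continuous f
  supp : HasCompactSupport f
  bi_inv : IsBiInv K 𝔫 f
  supp_at : IsSuppAtM K 𝔫 P f
  smooth : IsSmoothInf K f
  n_integrable : ∀ (g g' : G K) (j : ℤ),
    Integrable (fun x => f (g⁻¹ * unip K x * torK K α ^ j * g')) ν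
  n_int : ∀ (g g' : G K) (j : ℤ),
    ∫ x, f (g⁻¹ * unip K x * torK K α ^ j * g') ∂ν
      = κ g g' * Φ (Δ g g' + j • coordTorM K P e α)
  op : ∀ φ : G K → ℂ, IsSph0Level K 𝔫 φ →
    ∀ a b z₁ z₂ : HeightOneSpectrum (𝓞 K) → ℂ,
      (∀ v ∈ P, IsHeckeEigenAt φ v (a v) (b v)) →
      (∀ v ∈ P, z₁ v + z₂ v = a v) → (∀ v ∈ P, z₁ v * z₂ v = b v) →
      (∀ v ∈ P, b v ≠ 0) →
      ∀ g : G K, Rop K μ f φ g = κ₀ * ftCoordM K P Φ z₁ z₂ * φ g

variable {K}

section Linear

variable {mG : MeasurableSpace (G K)} {mA : MeasurableSpace (Adl K)}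
  {μ : Measure (G K)} {ν : Measure (Adl K)} {𝔫 : Ideal (𝓞 K)}
  {P : Finset (HeightOneSpectrum (𝓞 K))} {e : HeightOneSpectrum (𝓞 K) → ℕ}
  {α : Kˣ} {κ : G K → G K → ℂ} {Δ : G K → G K → CoordM K P} {κ₀ : ℂ}

theorem IsASPairM.zero : IsASPairM K μ ν 𝔫 P e α κ Δ κ₀ 0 0 where
  fin_m := ⟨∅, fun _ _ _ => rfl⟩
  int_x := fun m => by
    have : (fun x : InfinitePlace K → ℝ × ℝ => (0 : CoordM K P → ℂ) (m, x)) = fun _ => 0 := rfl
    rw [this]
    exact integrable_zero _ _ _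
  cont := continuous_const
  supp := HasCompactSupport.zero
  bi_inv := ⟨fun _ _ _ => ⟨rfl, rfl⟩, fun _ _ _ _ => ⟨rfl, rfl⟩⟩
  supp_at := fun _ hh => absurd rfl hh
  smooth := IsSmoothInf.zero
  n_integrable := fun g g' j => by
    have : (fun x => (0 : G K → ℂ) (g⁻¹ * unip K x * torK K α ^ j * g')) = fun _ => 0 := rfl
    rw [this]
    exact integrable_zero _ _ _
  n_int := fun g g' j => by simp
  op := fun φ _ a b z₁ z₂ _ _ _ _ g => by simp [Rop, ftCoordM, ftCrd_zero]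

theorem IsASPairM.add [OpensMeasurableSpace (G K)] [IsFiniteMeasureOnCompacts μ]
    {Φ₁ Φ₂ : CoordM K P → ℂ} {f₁ f₂ : G K → ℂ}
    (h₁ : IsASPairM K μ ν 𝔫 P e α κ Δ κ₀ Φ₁ f₁) (h₂ : IsASPairM K μ ν 𝔫 P e α κ Δ κ₀ Φ₂ f₂) :
    IsASPairM K μ ν 𝔫 P e α κ Δ κ₀ (Φ₁ + Φ₂) (f₁ + f₂) where
  fin_m := by
    classical
    obtain ⟨M₁, hM₁⟩ := h₁.fin_m
    obtain ⟨M₂, hM₂⟩ := h₂.fin_m
    refine ⟨M₁ ∪ M₂, fun m hm x => ?_⟩
    rw [Finset.mem_union, not_or] at hm
    simp [hM₁ m hm.1 x, hM₂ m hm.2 x]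
  int_x := fun m => (h₁.int_x m).add (h₂.int_x m)
  cont := h₁.cont.add h₂.cont
  supp := h₁.supp.add h₂.supp
  bi_inv := by
    refine ⟨fun u hu h => ⟨?_, ?_⟩, fun w k hk h => ⟨?_, ?_⟩⟩
    · simp only [Pi.add_apply, (h₁.bi_inv.1 u hu h).1, (h₂.bi_inv.1 u hu h).1]
    · simp only [Pi.add_apply, (h₁.bi_inv.1 u hu h).2, (h₂.bi_inv.1 u hu h).2]
    · simp only [Pi.add_apply, (h₁.bi_inv.2 w k hk h).1, (h₂.bi_inv.2 w k hk h).1]
    · simp only [Pi.add_apply, (h₁.bi_inv.2 w k hk h).2, (h₂.bi_inv.2 w k hk h).2]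
  supp_at := fun h hh => by
    by_cases h1 : f₁ h = 0
    · have h2 : f₂ h ≠ 0 := fun h2 => hh (by simp [h1, h2])
      exact h₂.supp_at h h2
    · exact h₁.supp_at h h1
  smooth := h₁.smooth.add h₂.smooth
  n_integrable := fun g g' j => (h₁.n_integrable g g' j).add (h₂.n_integrable g g' j)
  n_int := fun g g' j => by
    simp only [Pi.add_apply]
    rw [integral_add (h₁.n_integrable g g' j) (h₂.n_integrable g g' j), h₁.n_int, h₂.n_int]
    ring
  op := fun φ hφ a b z₁ z₂ he hz₁ hz₂ hb g => by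
    have e₁ := h₁.op φ hφ a b z₁ z₂ he hz₁ hz₂ hb g
    have e₂ := h₂.op φ hφ a b z₁ z₂ he hz₁ hz₂ hb g
    unfold Rop at e₁ e₂ ⊢
    have : (fun h => φ (g * h) * (f₁ + f₂) h)
        = fun h => φ (g * h) * f₁ h + φ (g * h) * f₂ h := by
      funext h
      simp only [Pi.add_apply]
      ring
    rw [this, integral_add (rop_integrable μ hφ.cont h₁.cont h₁.supp g)
      (rop_integrable μ hφ.cont h₂.cont h₂.supp g), e₁, e₂]
    unfold ftCoordM
    rw [ftCrd_add h₁.fin_m h₂.fin_m h₁.int_x h₂.int_x]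
    ring

theorem IsASPairM.smul {Φ : CoordM K P → ℂ} {f : G K → ℂ}
    (h : IsASPairM K μ ν 𝔫 P e α κ Δ κ₀ Φ f) (c : ℂ) :
    IsASPairM K μ ν 𝔫 P e α κ Δ κ₀ (c • Φ) (c • f) where
  fin_m := by
    obtain ⟨M, hM⟩ := h.fin_m
    exact ⟨M, fun m hm x => by simp [hM m hm x]⟩
  int_x := fun m => (h.int_x m).const_mul c
  cont := h.cont.const_smul c
  supp := h.supp.mono fun x hx => by
    rw [Function.mem_support] at hx ⊢
    intro h0
    exact hx (by simp [h0])
  bi_inv := by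
    refine ⟨fun u hu y => ⟨?_, ?_⟩, fun w k hk y => ⟨?_, ?_⟩⟩
    · simp only [Pi.smul_apply, (h.bi_inv.1 u hu y).1]
    · simp only [Pi.smul_apply, (h.bi_inv.1 u hu y).2]
    · simp only [Pi.smul_apply, (h.bi_inv.2 w k hk y).1]
    · simp only [Pi.smul_apply, (h.bi_inv.2 w k hk y).2]
  supp_at := fun y hy => by
    have h1 : f y ≠ 0 := fun h1 => hy (by simp [h1])
    exact h.supp_at y h1
  smooth := h.smooth.smul c
  n_integrable := fun g g' j => (h.n_integrable g g' j).const_mul c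
  n_int := fun g g' j => by
    simp only [Pi.smul_apply, smul_eq_mul]
    rw [integral_const_mul, h.n_int]
    ring
  op := fun φ hφ a b z₁ z₂ he hz₁ hz₂ hb g => by
    have e := h.op φ hφ a b z₁ z₂ he hz₁ hz₂ hb g
    unfold Rop at e ⊢
    have : (fun y => φ (g * y) * (c • f) y) = fun y => c * (φ (g * y) * f y) := by
      funext y
      simp only [Pi.smul_apply, smul_eq_mul]
      ring
    rw [this, integral_const_mul, e]
    unfold ftCoordM
    rw [ftCrd_smul]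
    ring

end Linear

/-! ## 2. The pure tensor is smooth at infinity -/

theorem outsideUM_mul_triv (𝔫 : Ideal (𝓞 K)) (P : Finset (HeightOneSpectrum (𝓞 K)))
    (g h : G K) (hh : ∀ v : HeightOneSpectrum (𝓞 K), TrivAtFin v h) :
    OutsideUM K 𝔫 P (g * h) ↔ OutsideUM K 𝔫 P g := by
  have e1 : ∀ v : HeightOneSpectrum (𝓞 K), finComp v (g * h) = finComp v g := fun v => by
    rw [← finGL_coe, ← finGL_coe, map_mul, finGL_eq_one_of_triv v (hh v), mul_one]
  have e2 : ∀ v : HeightOneSpectrum (𝓞 K), finComp v (g * h)⁻¹ = finComp v g⁻¹ := fun v => by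
    rw [← finGL_coe, ← finGL_coe, mul_inv_rev, map_mul, map_inv,
      finGL_eq_one_of_triv v (hh v), inv_one, one_mul]
  unfold OutsideUM
  simp only [e1, e2]

/-- **The multi-place pure tensor is smooth at infinity** if every `F_w` is smooth. -/
theorem pureSmoothM (𝔫 : Ideal (𝓞 K)) (P : Finset (HeightOneSpectrum (𝓞 K)))
    (f₀ : ∀ v : HeightOneSpectrum (𝓞 K), GL (Fin 2) (v.adicCompletion K) → ℂ)
    (F : InfinitePlace K → GL (Fin 2) ℂ → ℂ)
    (hF : ∀ w, IsCplxSmooth (F w)) : IsSmoothInf K (pureFnM K 𝔫 P f₀ F) := by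
  intro n h hfin hinf g
  have key : ∀ c : ℂ, ContDiff ℝ ((⊤ : ℕ∞) : WithTop ℕ∞)
      (fun t => c * ∏ w : InfinitePlace K, F w (infGL K w g * infGL K w (h t))) := by
    intro c
    refine contDiff_const.mul (contDiff_prod fun w _ => ?_)
    refine hF w n (fun t => infGL K w g * infGL K w (h t)) fun i j => ?_
    have : (fun t => ((infGL K w g * infGL K w (h t) : GL (Fin 2) ℂ) :
        Matrix (Fin 2) (Fin 2) ℂ) i j)
        = fun t => ∑ k : Fin 2, infComp w g i k * infComp w (h t) k j := by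
      funext t
      rw [Units.val_mul, infGL_coe, infGL_coe, Matrix.mul_apply]
    rw [this]
    exact ContDiff.sum fun k _ => contDiff_const.mul (hinf w k j)
  by_cases hg : OutsideUM K 𝔫 P g
  · have e : (fun t => pureFnM K 𝔫 P f₀ F (g * h t))
        = fun t => (∏ v ∈ P, f₀ v (finGL K v g))
            * ∏ w : InfinitePlace K, F w (infGL K w g * infGL K w (h t)) := by
      funext t
      unfold pureFnM
      rw [if_pos ((outsideUM_mul_triv 𝔫 P g (h t) (hfin t)).2 hg)]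
      congr 1
      · refine Finset.prod_congr rfl fun v _ => ?_
        rw [map_mul, finGL_eq_one_of_triv v (hfin t v), mul_one]
      · simp only [map_mul]
    rw [e]
    exact key _
  · have e : (fun t => pureFnM K 𝔫 P f₀ F (g * h t)) = fun _ => 0 := by
      funext t
      unfold pureFnM
      rw [if_neg fun h' => hg ((outsideUM_mul_triv 𝔫 P g (h t) (hfin t)).1 h')]
    rw [e]
    exact contDiff_const

/-! ## 3. The top of the Abel--Satake pair -/

variable (K)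

/-- **T3.18a, multi-place, the top in the smooth form.** -/
theorem abelSatakeSmoothM_of (h1 : SatakeLocC K) (h2 : AbelCplxSmoothC) (hft : FtPureC)
    (h3 : PureRegMC K) (h4 : NIntMC K) (h5 : ROpMC K) : AbelSatakeSmoothMC K := by
  let _ : MeasurableSpace (Adl K) := borel (Adl K)
  let _ : MeasurableSpace (G K) := borel (G K)
  let _ : MeasurableSpace (GL (Fin 2) ℂ) := borel (GL (Fin 2) ℂ)
  have _ : BorelSpace (G K) := ⟨rfl⟩
  intro hcx μ hμ ν hν 𝔫 P e a₀ α hfr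
  obtain ⟨μc, hμc, κc, hκc, hAbel⟩ := h2
  obtain ⟨κ, Δ, hN⟩ := h4 hcx ν hν 𝔫 P e a₀ α hfr
  obtain ⟨κ₁, hκ₁, hR⟩ := h5 hcx μ hμ μc hμc 𝔫 hfr.level P hfr.prime
  refine ⟨κ, Δ, κ₁ * κc ^ Fintype.card (InfinitePlace K),
    mul_ne_zero hκ₁ (pow_ne_zero _ hκc), ?_⟩
  intro Φ hΦ
  suffices h : ∃ f : G K → ℂ,
      IsASPairM K μ ν 𝔫 P e α κ Δ (κ₁ * κc ^ Fintype.card (InfinitePlace K)) Φ f by
    obtain ⟨f, hf⟩ := h
    exact ⟨f, hf.cont, hf.supp, hf.bi_inv, hf.supp_at, hf.smooth, hf.n_int, hf.op⟩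
  induction hΦ using Submodule.span_induction with
  | zero => exact ⟨0, IsASPairM.zero⟩
  | add Φ₁ Φ₂ _ _ ih₁ ih₂ =>
    obtain ⟨f₁, hf₁⟩ := ih₁
    obtain ⟨f₂, hf₂⟩ := ih₂
    exact ⟨f₁ + f₂, hf₁.add hf₂⟩
  | smul c Φ _ ih =>
    obtain ⟨f, hf⟩ := ih
    exact ⟨c • f, hf.smul c⟩
  | mem Φ hΦ =>
    classical
    obtain ⟨A', β, hA', hβ, hΦ⟩ := hΦ
    -- the total family of Satake coefficients
    set A : HeightOneSpectrum (𝓞 K) → ℤ × ℤ → ℂ :=
      fun v => if h : v ∈ P then A' ⟨v, h⟩ else 0 with hAdef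
    have hAA' : (fun v : P => A v) = A' := by
      funext v
      simp only [hAdef, dif_pos v.2, Subtype.coe_eta]
    have hAsym : ∀ v, IsSymFin (A v) := by
      intro v
      by_cases hv : v ∈ P
      · simp only [hAdef, dif_pos hv]
        exact hA' ⟨v, hv⟩
      · simp only [hAdef, dif_neg hv]
        exact ⟨by simp, fun _ _ => rfl⟩
    have hΦ' : Φ = pureCoordM K P A β := by
      rw [hΦ]
      unfold pureCoordM
      rw [hAA']
    subst hΦ'
    choose f₀ hpair using fun v : HeightOneSpectrum (𝓞 K) => h1 v (A v) (hAsym v)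
    choose F hF1 hFs hF2 hF3 using fun w : InfinitePlace K => hAbel (β w) (hβ w)
    obtain ⟨r1, r2, r3, r4⟩ := h3 𝔫 hfr.level P hfr.prime f₀ F
      (fun v _ => (hpair v).bi_inv) (fun v _ => (hpair v).fin_supp) hF1
    have hNN := hN A β f₀ F (fun v _ => (hpair v).bi_inv) (fun v _ => (hpair v).fin_supp)
      (fun v _ => (hpair v).n_int) hF1 hF2
    refine ⟨pureFnM K 𝔫 P f₀ F, ?_⟩
    refine
      { fin_m := ⟨Fintype.piFinset fun i : P => (hAsym i).1.toFinset, fun m hm x => ?_⟩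
        int_x := fun m => ?_
        cont := r1
        supp := r2
        bi_inv := r3
        supp_at := r4
        smooth := pureSmoothM 𝔫 P f₀ F hFs
        n_integrable := fun g g' j => (hNN g g' j).1
        n_int := fun g g' j => (hNN g g' j).2
        op := fun φ hφ a b z₁ z₂ he hz₁ hz₂ hb g => ?_ }
    · rw [Fintype.mem_piFinset, not_forall] at hm
      obtain ⟨i, hi⟩ := hm
      rw [Set.Finite.mem_toFinset, Function.mem_support, not_not] at hi
      have : ∏ v : P, A v (m v) = 0 := Finset.prod_eq_zero (Finset.mem_univ i) hi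
      show (∏ v : P, A v (m v)) * ∏ w : InfinitePlace K, β w (x w) = 0
      rw [this, zero_mul]
    · have : (fun x : InfinitePlace K → ℝ × ℝ => pureCoordM K P A β (m, x))
          = fun x => (∏ v : P, A v (m v)) * ∏ w : InfinitePlace K, β w (x w) := rfl
      rw [this]
      refine Integrable.const_mul ?_ _
      exact Integrable.fintype_prod (f := β) (μ := fun _ => volume) fun w =>
        (hβ w).1.continuous.integrable_of_hasCompactSupport (hβ w).2.1
    · rw [hR A (fun w => κc * ∫ x : ℝ × ℝ, β w x) f₀ F (fun v _ => (hpair v).bi_inv)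
        (fun v _ => (hpair v).fin_supp) (fun v _ => (hpair v).eigen)
        hF1 hF3 φ hφ a b z₁ z₂ he hz₁ hz₂ hb g]
      unfold ftCoordM pureCoordM
      rw [hft P (InfinitePlace K) (fun v : P => A v) β (fun i => (hAsym i).1)
        (fun v : P => z₁ v) (fun v : P => z₂ v), Finset.prod_mul_distrib,
        Finset.prod_const, Finset.card_univ,
        Finset.prod_coe_sort P (fun v => laurent (A v) (z₁ v) (z₂ v))]
      ring

/-! ## 4. The EK function -/

/-- **T3.18b, multi-place, smooth form** (the proof of helper732 with `P` in place of `v₀`). -/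
theorem ekExistSmoothM_of (hAS : AbelSatakeSmoothMC K) (hcore : EKCoreC)
    (hSU : InScalarUnifC K) : EKExistSmoothMC K := by
  intro hcplx μ hμ ν hν 𝔫 P e a₀ α hfr
  obtain ⟨κ, Δ, κ₀, hκ₀, hΦall⟩ := hAS hcplx μ hμ ν hν 𝔫 P e a₀ α hfr
  haveI : Nonempty P := hfr.nonempty.to_subtype
  obtain ⟨Φ, hΦmem, hΦsum, hΦft⟩ :=
    hcore P (InfinitePlace K) (fun v : P => e v) (fun w => Real.log (w (α : K)))
      (fun v => hfr.pos v v.2)
  obtain ⟨f, hfc, hfs, hfbi, hfsupp, hsm, hfi, hfii⟩ := hΦall Φ hΦmem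
  refine ⟨f, hfc, hfs, hsm, ?_, hfbi, hfsupp, ?_⟩
  · -- `IsEK`
    intro g g'
    have h1 : (fun j : ℤ => ∫ x, f (g⁻¹ * unip K x * torK K α ^ j * g') ∂ν)
        = fun j : ℤ => κ g g' * Φ (Δ g g' + j • coordTorM K P e α) := by
      funext j
      exact hfi g g' j
    rw [h1]
    have h2 := (hΦsum (Δ g g')).mul_left (κ g g')
    rw [mul_zero] at h2
    exact h2
  · -- the eigenvalue
    classical
    refine ⟨fun a b => if ∃ v ∈ P, b v = 0 then 1 else
      κ₀ * ftCoordM K P Φ (fun v => H732.root1_732 (a v) (b v))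
        (fun v => H732.root2_732 (a v) (b v)), ?_, ?_⟩
    · intro a b hgood
      by_cases hb : ∃ v ∈ P, b v = 0
      · simp only [if_pos hb]
        exact one_ne_zero
      · simp only [if_neg hb]
        simp only [not_exists, not_and] at hb
        have hr₁ : ∀ v : P, H732.root1_732 (a v) (b v) ≠ 0 := fun v h =>
          hb v v.2 (by rw [← (H732.roots_spec732 (a v) (b v)).2, h, zero_mul])
        have hr₂ : ∀ v : P, H732.root2_732 (a v) (b v) ≠ 0 := fun v h =>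
          hb v v.2 (by rw [← (H732.roots_spec732 (a v) (b v)).2, h, mul_zero])
        refine mul_ne_zero hκ₀ (hΦft _ _ hr₁ hr₂ ?_)
        intro z hz
        -- extend `z` to all places and use `GoodParamM`
        have key := hgood (fun v => if h : v ∈ P then z ⟨v, h⟩ else 0) ?_
        · rw [← Finset.prod_coe_sort P] at key
          have e1 : ∀ v : P, (if h : (v : HeightOneSpectrum (𝓞 K)) ∈ P then
              z ⟨v, h⟩ else 0) = z v := fun v => by
            simp only [dif_pos v.2, Subtype.coe_eta]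
          simpa only [e1] using key
        · intro v hv
          simp only [dif_pos hv]
          obtain ⟨hs, hp⟩ := H732.roots_spec732 (a v) (b v)
          rcases hz ⟨v, hv⟩ with h | h
          · rw [h]
            linear_combination (H732.root1_732 (a v) (b v)) * hs - hp
          · rw [h]
            linear_combination (H732.root2_732 (a v) (b v)) * hs - hp
    · intro φ hφ a b hecke g
      by_cases hb : ∃ v ∈ P, b v = 0
      · simp only [if_pos hb, one_mul]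
        obtain ⟨v, hv, hbv⟩ := hb
        have hecke' := hecke v hv
        rw [hbv] at hecke'
        have hzero : ∀ g : G K, φ g = 0 := H732.eq_zero_of_b_eq_zero732 K hSU hecke'
        rw [hzero g]
        unfold Rop
        simp only [hzero, zero_mul, integral_zero]
      · simp only [if_neg hb]
        simp only [not_exists, not_and] at hb
        exact hfii φ hφ a b _ _ hecke (fun v _ => (H732.roots_spec732 (a v) (b v)).1)
          (fun v _ => (H732.roots_spec732 (a v) (b v)).2) hb g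

/-- Existence in operator form (smooth, multi-place) from existence in integral form, FACT 1
and the adjoint leaf. -/
theorem ekOpExistSmoothM_of (h1 : EKKillC K) (h5 : EKStarC K) (h8 : EKExistSmoothMC K)
    (hν : InAddHaarC K) : EKOpExistSmoothMC K := by
  intro hK μ hμ 𝔫 P e a₀ h𝔫 hP hPe hspan hmem
  obtain ⟨ν, hνH⟩ := hν
  have ha₀ : algebraMap (𝓞 K) K a₀ ≠ 0 := by
    intro h0
    have h0' : a₀ = 0 :=
      (map_eq_zero_iff (algebraMap (𝓞 K) K) (FaithfulSMul.algebraMap_injective (𝓞 K) K)).1 h0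
    rw [h0'] at hspan
    have hbot : (∏ v ∈ P, v.asIdeal ^ e v) = ⊥ := by rw [← hspan]; simp
    rw [← Ideal.zero_eq_bot, Finset.prod_eq_zero_iff] at hbot
    obtain ⟨v, hvP, hv⟩ := hbot
    exact v.ne_bot ((pow_eq_zero_iff (Nat.pos_iff_ne_zero.1 (hPe v hvP).2)).1 hv)
  have hfr : FrameM K 𝔫 P e a₀ (Units.mk0 _ ha₀) :=
    ⟨h𝔫, hP, fun v hv => (hPe v hv).1, fun v hv => (hPe v hv).2, hspan, hmem, rfl⟩
  obtain ⟨f, hf, hfc, hsm, hEK, hbi, hsupp, c, hc, hact⟩ :=
    h8 hK μ hμ ν hνH 𝔫 P e a₀ (Units.mk0 _ ha₀) hfr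
  refine ⟨f, hf, hfc, hsm, ekOp_of_int K h1 hμ hνH hf hfc hEK, ?_, hbi, hsupp, c, hc, hact⟩
  have hstar : IsEK K ν (starG K f) (Units.mk0 _ ha₀) := h5 ν hνH _ f hf hfc hEK
  have hsc : Continuous (starG K f) := by
    unfold starG
    exact (Complex.continuous_conj).comp (hf.comp continuous_inv)
  have hscc : HasCompactSupport (starG K f) := by
    unfold starG
    have h1 : HasCompactSupport (fun h : G K => f h⁻¹) := by
      have := hfc.comp_homeomorph (Homeomorph.inv (G K))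
      simpa [Function.comp_def] using this
    exact h1.comp_left (g := (starRingEnd ℂ)) (map_zero _)
  exact ekOp_of_int K h1 hμ hνH hsc hscc hstar

end Fermat.Agent.LT.T3.M

end
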