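import Fermat.Agent.LT.T3.M.GenSpec
import Fermat.Agent.LT.T3.M.Top

/-!
# Row LT, tower T3, station T3.18M (architect helper14): THE PROVED TOPS, general archimedean
# parameter

OFF-MAIN.  Complete proofs, nothing assumed.

* `rOpM_of_mean : ROpMeanMC K → ROpMC K` (the leaf M.4 is the case `m = sphM` of G.2);
* `abelSatakeGenM_of : AS.SatakeLocC K → AS.AbelCplxSmoothC → MeanActsC → FtPureC → PureRegMC K →
  NIntMC K → ROpMeanMC K → AbelSatakeGenMC K`;
* `ekOpExistGenM_of : AbelSatakeGenMC K → EKCoreC → InScalarUnifC K → EKKillC K → EKStarC K →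
  InAddHaarC K → EKOpExistGenMC K`;
* `ekOpExistSmoothM_of_gen : EKOpExistGenMC K → EKOpExistSmoothMC K`.
-/

set_option autoImplicit false
set_option linter.style.haveILetI false

open IsDedekindDomain NumberField MeasureTheory
open Fermat.Agent.LT.H556.A0

noncomputable section

namespace Fermat.Agent.LT.T3.M

open Fermat.Agent.LT.T3.AS

/-! ## 0. The class of parameter `0` -/

theorem isLocSph0_of_mean {m : ℝ → ℂ} (hm : ∀ d : ℝ, 0 < d → m d = sphM d)
    {Ψ : GL (Fin 2) ℂ → ℂ} (h : IsLocMean m Ψ) : IsLocSph0 Ψ where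
  cont := h.cont
  unitary := h.unitary
  scalar := h.scalar
  mean := fun d hd Y hY y => by
    rw [h.mean d hd Y hY y, hm d hd]
    rfl

theorem isLocMean_of_sph0 {Ψ : GL (Fin 2) ℂ → ℂ} (h : IsLocSph0 Ψ) : IsLocMean sphM Ψ where
  cont := h.cont
  unitary := h.unitary
  scalar := h.scalar
  mean := fun d hd Y hY y => by
    rw [h.mean d hd Y hY y]
    rfl

theorem actsByMean_of_actsBy {_mc : MeasurableSpace (GL (Fin 2) ℂ)}
    {μc : Measure (GL (Fin 2) ℂ)} {F : GL (Fin 2) ℂ → ℂ} {C : ℂ} {m : ℝ → ℂ}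
    (hm : ∀ d : ℝ, 0 < d → m d = sphM d) (h : ActsBy μc F C) : ActsByMean μc F m C :=
  fun Ψ hΨ y => h Ψ (isLocSph0_of_mean hm hΨ) y

variable (K : Type) [Field K] [NumberField K]

theorem isMeanLevel_of_sph0 (hK : ∀ w : InfinitePlace K, w.IsComplex) {𝔫 : Ideal (𝓞 K)}
    {φ : G K → ℂ} (h : IsSph0Level K 𝔫 φ) : IsMeanLevel K 𝔫 (fun _ => sphM) φ where
  cont := h.cont
  level_inv := h.level_inv
  arch_scalar := h.arch_scalar
  arch_compact := h.arch_compact
  mean := fun w d hd Y hY g => by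
    rw [h.mean_complex w (hK w) d hd Y hY g]
    rfl

/-- The leaf M.4 is the case `m = sphM` of the leaf G.2. -/
theorem rOpM_of_mean (h : ROpMeanMC K) : ROpMC K := by
  intro hcx μ hμ μc hμc 𝔫 h𝔫 P hP
  obtain ⟨κ₁, hκ₁, H⟩ := h hcx μ hμ μc hμc 𝔫 h𝔫 P hP
  refine ⟨κ₁, hκ₁, fun A C f₀ F h1 h2 h3 h4 h5 φ hφ a b z₁ z₂ he hz₁ hz₂ hb g => ?_⟩
  exact H A C (fun _ => sphM) f₀ F h1 h2 h3 h4
    (fun w => actsByMean_of_actsBy (fun _ _ => rfl) (h5 w)) φ (isMeanLevel_of_sph0 K hcx hφ)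
    a b z₁ z₂ he hz₁ hz₂ hb g

/-! ## 1. The induction predicate -/

/-- The induction predicate with the action on all joint eigenfunctions. -/
structure IsASPairG {mG : MeasurableSpace (G K)} {mA : MeasurableSpace (Adl K)}
    (μ : Measure (G K)) (ν : Measure (Adl K)) (𝔫 : Ideal (𝓞 K))
    (P : Finset (HeightOneSpectrum (𝓞 K))) (e : HeightOneSpectrum (𝓞 K) → ℕ) (α : Kˣ)
    (κ : G K → G K → ℂ) (Δ : G K → G K → CoordM K P) (κ₀ : ℂ)
    (Φ : CoordM K P → ℂ) (f : G K → ℂ) : Prop where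
  base : IsASPairM K μ ν 𝔫 P e α κ Δ κ₀ Φ f
  gen : ∃ c : (HeightOneSpectrum (𝓞 K) → ℂ) → (HeightOneSpectrum (𝓞 K) → ℂ) →
      (InfinitePlace K → ℝ → ℂ) → ℂ,
    (∀ (z₁ z₂ : HeightOneSpectrum (𝓞 K) → ℂ) (m : InfinitePlace K → ℝ → ℂ),
      IsSph0Param K m → c z₁ z₂ m = κ₀ * ftCoordM K P Φ z₁ z₂) ∧
    ∀ (φ : G K → ℂ) (m : InfinitePlace K → ℝ → ℂ), IsMeanLevel K 𝔫 m φ →
    ∀ a b z₁ z₂ : HeightOneSpectrum (𝓞 K) → ℂ,
      (∀ v ∈ P, IsHeckeEigenAt φ v (a v) (b v)) →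
      (∀ v ∈ P, z₁ v + z₂ v = a v) → (∀ v ∈ P, z₁ v * z₂ v = b v) →
      (∀ v ∈ P, b v ≠ 0) →
      ∀ g : G K, Rop K μ f φ g = c z₁ z₂ m * φ g

variable {K}

section Linear

variable {mG : MeasurableSpace (G K)} {mA : MeasurableSpace (Adl K)}
  {μ : Measure (G K)} {ν : Measure (Adl K)} {𝔫 : Ideal (𝓞 K)}
  {P : Finset (HeightOneSpectrum (𝓞 K))} {e : HeightOneSpectrum (𝓞 K) → ℕ}
  {α : Kˣ} {κ : G K → G K → ℂ} {Δ : G K → G K → CoordM K P} {κ₀ : ℂ}

theorem IsASPairG.zero : IsASPairG K μ ν 𝔫 P e α κ Δ κ₀ 0 0 where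
  base := IsASPairM.zero
  gen := ⟨fun _ _ _ => 0, fun z₁ z₂ m _ => by simp [ftCoordM, ftCrd_zero],
    fun φ m _ a b z₁ z₂ _ _ _ _ g => by simp [Rop]⟩

theorem IsASPairG.add [OpensMeasurableSpace (G K)] [IsFiniteMeasureOnCompacts μ]
    {Φ₁ Φ₂ : CoordM K P → ℂ} {f₁ f₂ : G K → ℂ}
    (h₁ : IsASPairG K μ ν 𝔫 P e α κ Δ κ₀ Φ₁ f₁) (h₂ : IsASPairG K μ ν 𝔫 P e α κ Δ κ₀ Φ₂ f₂) :
    IsASPairG K μ ν 𝔫 P e α κ Δ κ₀ (Φ₁ + Φ₂) (f₁ + f₂) where
  base := h₁.base.add h₂.base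
  gen := by
    obtain ⟨c₁, hc₁, ho₁⟩ := h₁.gen
    obtain ⟨c₂, hc₂, ho₂⟩ := h₂.gen
    refine ⟨fun z₁ z₂ m => c₁ z₁ z₂ m + c₂ z₁ z₂ m, fun z₁ z₂ m hm => ?_,
      fun φ m hφ a b z₁ z₂ he hz₁ hz₂ hb g => ?_⟩
    · show c₁ z₁ z₂ m + c₂ z₁ z₂ m = _
      rw [hc₁ z₁ z₂ m hm, hc₂ z₁ z₂ m hm]
      unfold ftCoordM
      rw [ftCrd_add h₁.base.fin_m h₂.base.fin_m h₁.base.int_x h₂.base.int_x]
      ring
    · have e₁ := ho₁ φ m hφ a b z₁ z₂ he hz₁ hz₂ hb g
      have e₂ := ho₂ φ m hφ a b z₁ z₂ he hz₁ hz₂ hb g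
      unfold Rop at e₁ e₂ ⊢
      have : (fun h => φ (g * h) * (f₁ + f₂) h)
          = fun h => φ (g * h) * f₁ h + φ (g * h) * f₂ h := by
        funext h
        simp only [Pi.add_apply]
        ring
      rw [this, integral_add (rop_integrable μ hφ.cont h₁.base.cont h₁.base.supp g)
        (rop_integrable μ hφ.cont h₂.base.cont h₂.base.supp g), e₁, e₂]
      ring

theorem IsASPairG.smul {Φ : CoordM K P → ℂ} {f : G K → ℂ}
    (h : IsASPairG K μ ν 𝔫 P e α κ Δ κ₀ Φ f) (c : ℂ) :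
    IsASPairG K μ ν 𝔫 P e α κ Δ κ₀ (c • Φ) (c • f) where
  base := h.base.smul c
  gen := by
    obtain ⟨c₁, hc₁, ho₁⟩ := h.gen
    refine ⟨fun z₁ z₂ m => c * c₁ z₁ z₂ m, fun z₁ z₂ m hm => ?_,
      fun φ m hφ a b z₁ z₂ he hz₁ hz₂ hb g => ?_⟩
    · show c * c₁ z₁ z₂ m = _
      rw [hc₁ z₁ z₂ m hm]
      unfold ftCoordM
      rw [ftCrd_smul]
      ring
    · have e₁ := ho₁ φ m hφ a b z₁ z₂ he hz₁ hz₂ hb g
      unfold Rop at e₁ ⊢
      have : (fun y => φ (g * y) * (c • f) y) = fun y => c * (φ (g * y) * f y) := by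
        funext y
        simp only [Pi.smul_apply, smul_eq_mul]
        ring
      rw [this, integral_const_mul, e₁]
      ring

end Linear

/-! ## 2. The top of the Abel--Satake pair, general archimedean parameter -/

variable (K)

/-- **T3.18a, multi-place, smooth, general archimedean parameter: the top.** -/
theorem abelSatakeGenM_of (h1 : SatakeLocC K) (h2 : AbelCplxSmoothC) (hG : MeanActsC)
    (hft : FtPureC) (h3 : PureRegMC K) (h4 : NIntMC K) (h5 : ROpMeanMC K) :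
    AbelSatakeGenMC K := by
  let _ : MeasurableSpace (Adl K) := borel (Adl K)
  let _ : MeasurableSpace (G K) := borel (G K)
  let _ : MeasurableSpace (GL (Fin 2) ℂ) := borel (GL (Fin 2) ℂ)
  have _ : BorelSpace (G K) := ⟨rfl⟩
  intro hcx μ hμ ν hν 𝔫 P e a₀ α hfr
  obtain ⟨μc, hμc, κc, hκc, hAbel⟩ := h2
  obtain ⟨κ, Δ, hN⟩ := h4 hcx ν hν 𝔫 P e a₀ α hfr
  obtain ⟨κ₁, hκ₁, hR⟩ := h5 hcx μ hμ μc hμc 𝔫 hfr.level P hfr.prime
  refine ⟨κ, Δ, κ₁ * κc ^ Fintype.card (InfinitePlace K),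
    mul_ne_zero hκ₁ (pow_ne_zero _ hκc), ?_⟩
  intro Φ hΦ
  suffices h : ∃ f : G K → ℂ,
      IsASPairG K μ ν 𝔫 P e α κ Δ (κ₁ * κc ^ Fintype.card (InfinitePlace K)) Φ f by
    obtain ⟨f, hf⟩ := h
    exact ⟨f, hf.base.cont, hf.base.supp, hf.base.bi_inv, hf.base.supp_at, hf.base.smooth,
      hf.base.n_int, hf.gen⟩
  induction hΦ using Submodule.span_induction with
  | zero => exact ⟨0, IsASPairG.zero⟩
  | add Φ₁ Φ₂ _ _ ih₁ ih₂ =>
    obtain ⟨f₁, hf₁⟩ := ih₁
    obtain ⟨f₂, hf₂⟩ := ih₂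
    exact ⟨f₁ + f₂, hf₁.add hf₂⟩
  | smul c Φ _ ih =>
    obtain ⟨f, hf⟩ := ih
    exact ⟨c • f, hf.smul c⟩
  | mem Φ hΦ =>
    classical
    obtain ⟨A', β, hA', hβ, hΦ⟩ := hΦ
    -- the total family of Satake coefficients
    set A : HeightOneSpectrum (𝓞 K) → ℤ × ℤ → ℂ :=
      fun v => if h : v ∈ P then A' ⟨v, h⟩ else 0 with hAdef
    have hAA' : (fun v : P => A v) = A' := by
      funext v
      simp only [hAdef, dif_pos v.2, Subtype.coe_eta]
    have hAsym : ∀ v, IsSymFin (A v) := by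
      intro v
      by_cases hv : v ∈ P
      · simp only [hAdef, dif_pos hv]
        exact hA' ⟨v, hv⟩
      · simp only [hAdef, dif_neg hv]
        exact ⟨by simp, fun _ _ => rfl⟩
    have hΦ' : Φ = pureCoordM K P A β := by
      rw [hΦ]
      unfold pureCoordM
      rw [hAA']
    subst hΦ'
    choose f₀ hpair using fun v : HeightOneSpectrum (𝓞 K) => h1 v (A v) (hAsym v)
    choose F hF1 hFs hF2 hF3 using fun w : InfinitePlace K => hAbel (β w) (hβ w)
    obtain ⟨r1, r2, r3, r4⟩ := h3 𝔫 hfr.level P hfr.prime f₀ F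
      (fun v _ => (hpair v).bi_inv) (fun v _ => (hpair v).fin_supp) hF1
    have hNN := hN A β f₀ F (fun v _ => (hpair v).bi_inv) (fun v _ => (hpair v).fin_supp)
      (fun v _ => (hpair v).n_int) hF1 hF2
    -- the scalars at the infinite places
    choose Cg hCg using fun (w : InfinitePlace K) (m' : ℝ → ℂ) => hG μc hμc (F w) (hF1 w) m'
    set Cw : InfinitePlace K → (ℝ → ℂ) → ℂ := fun w m' =>
      if ∀ d : ℝ, 0 < d → m' d = sphM d then κc * ∫ x : ℝ × ℝ, β w x else Cg w m' with hCw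
    have hCwa : ∀ (w : InfinitePlace K) (m' : ℝ → ℂ), ActsByMean μc (F w) m' (Cw w m') := by
      intro w m'
      by_cases hm : ∀ d : ℝ, 0 < d → m' d = sphM d
      · simp only [hCw, if_pos hm]
        exact actsByMean_of_actsBy hm (hF3 w)
      · simp only [hCw, if_neg hm]
        exact hCg w m'
    have hft' : ∀ z₁ z₂ : HeightOneSpectrum (𝓞 K) → ℂ,
        ftCoordM K P (pureCoordM K P A β) z₁ z₂
          = (∏ v ∈ P, laurent (A v) (z₁ v) (z₂ v)) * ∏ w : InfinitePlace K, ∫ x : ℝ × ℝ, β w x := by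
      intro z₁ z₂
      unfold ftCoordM pureCoordM
      rw [hft P (InfinitePlace K) (fun v : P => A v) β (fun i => (hAsym i).1)
        (fun v : P => z₁ v) (fun v : P => z₂ v),
        Finset.prod_coe_sort P (fun v => laurent (A v) (z₁ v) (z₂ v))]
    have hopG : ∀ (φ : G K → ℂ) (m : InfinitePlace K → ℝ → ℂ), IsMeanLevel K 𝔫 m φ →
        ∀ a b z₁ z₂ : HeightOneSpectrum (𝓞 K) → ℂ,
          (∀ v ∈ P, IsHeckeEigenAt φ v (a v) (b v)) →
          (∀ v ∈ P, z₁ v + z₂ v = a v) → (∀ v ∈ P, z₁ v * z₂ v = b v) →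
          (∀ v ∈ P, b v ≠ 0) →
          ∀ g : G K, Rop K μ (pureFnM K 𝔫 P f₀ F) φ g
            = (κ₁ * (∏ v ∈ P, laurent (A v) (z₁ v) (z₂ v))
                * ∏ w : InfinitePlace K, Cw w (m w)) * φ g :=
      fun φ m hφ a b z₁ z₂ he hz₁ hz₂ hb g =>
        hR A (fun w => Cw w (m w)) m f₀ F (fun v _ => (hpair v).bi_inv)
          (fun v _ => (hpair v).fin_supp) (fun v _ => (hpair v).eigen) hF1
          (fun w => hCwa w (m w)) φ hφ a b z₁ z₂ he hz₁ hz₂ hb g
    have hcsph : ∀ (z₁ z₂ : HeightOneSpectrum (𝓞 K) → ℂ) (m : InfinitePlace K → ℝ → ℂ),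
        IsSph0Param K m →
        κ₁ * (∏ v ∈ P, laurent (A v) (z₁ v) (z₂ v)) * ∏ w : InfinitePlace K, Cw w (m w)
          = κ₁ * κc ^ Fintype.card (InfinitePlace K)
            * ftCoordM K P (pureCoordM K P A β) z₁ z₂ := by
      intro z₁ z₂ m hm
      have e1 : ∀ w : InfinitePlace K, Cw w (m w) = κc * ∫ x : ℝ × ℝ, β w x := fun w => by
        simp only [hCw, if_pos (hm w)]
      simp only [e1]
      rw [hft' z₁ z₂, Finset.prod_mul_distrib, Finset.prod_const, Finset.card_univ]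
      ring
    refine ⟨pureFnM K 𝔫 P f₀ F, ?_, ?_⟩
    · refine
        { fin_m := ⟨Fintype.piFinset fun i : P => (hAsym i).1.toFinset, fun m hm x => ?_⟩
          int_x := fun m => ?_
          cont := r1
          supp := r2
          bi_inv := r3
          supp_at := r4
          smooth := pureSmoothM 𝔫 P f₀ F hFs
          n_integrable := fun g g' j => (hNN g g' j).1
          n_int := fun g g' j => (hNN g g' j).2
          op := fun φ hφ a b z₁ z₂ he hz₁ hz₂ hb g => ?_ }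
      · rw [Fintype.mem_piFinset, not_forall] at hm
        obtain ⟨i, hi⟩ := hm
        rw [Set.Finite.mem_toFinset, Function.mem_support, not_not] at hi
        have : ∏ v : P, A v (m v) = 0 := Finset.prod_eq_zero (Finset.mem_univ i) hi
        show (∏ v : P, A v (m v)) * ∏ w : InfinitePlace K, β w (x w) = 0
        rw [this, zero_mul]
      · have : (fun x : InfinitePlace K → ℝ × ℝ => pureCoordM K P A β (m, x))
            = fun x => (∏ v : P, A v (m v)) * ∏ w : InfinitePlace K, β w (x w) := rfl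
        rw [this]
        refine Integrable.const_mul ?_ _
        exact Integrable.fintype_prod (f := β) (μ := fun _ => volume) fun w =>
          (hβ w).1.continuous.integrable_of_hasCompactSupport (hβ w).2.1
      · rw [hopG φ (fun _ => sphM) (isMeanLevel_of_sph0 K hcx hφ) a b z₁ z₂ he hz₁ hz₂ hb g,
          hcsph z₁ z₂ (fun _ => sphM) (fun _ _ _ => rfl)]
    · exact ⟨fun z₁ z₂ m => κ₁ * (∏ v ∈ P, laurent (A v) (z₁ v) (z₂ v))
          * ∏ w : InfinitePlace K, Cw w (m w), hcsph, hopG⟩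

/-! ## 3. The EK function, general archimedean parameter -/

/-- **THE OUTPUT of station T3.18M, general archimedean parameter.** -/
theorem ekOpExistGenM_of (hAS : AbelSatakeGenMC K) (hcore : EKCoreC) (hSU : InScalarUnifC K)
    (hk : EKKillC K) (hs : EKStarC K) (hν : InAddHaarC K) : EKOpExistGenMC K := by
  intro hK μ hμ 𝔫 P e a₀ h𝔫 hP hPe hspan hmem
  obtain ⟨ν, hνH⟩ := hν
  have ha₀ : algebraMap (𝓞 K) K a₀ ≠ 0 := by
    intro h0
    have h0' : a₀ = 0 :=
      (map_eq_zero_iff (algebraMap (𝓞 K) K) (FaithfulSMul.algebraMap_injective (𝓞 K) K)).1 h0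
    rw [h0'] at hspan
    have hbot : (∏ v ∈ P, v.asIdeal ^ e v) = ⊥ := by rw [← hspan]; simp
    rw [← Ideal.zero_eq_bot, Finset.prod_eq_zero_iff] at hbot
    obtain ⟨v, hvP, hv⟩ := hbot
    exact v.ne_bot ((pow_eq_zero_iff (Nat.pos_iff_ne_zero.1 (hPe v hvP).2)).1 hv)
  set α : Kˣ := Units.mk0 _ ha₀ with hα
  have hfr : FrameM K 𝔫 P e a₀ α :=
    ⟨h𝔫, hP, fun v hv => (hPe v hv).1, fun v hv => (hPe v hv).2, hspan, hmem, rfl⟩
  obtain ⟨κ, Δ, κ₀, hκ₀, hΦall⟩ := hAS hK μ hμ ν hνH 𝔫 P e a₀ α hfr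
  haveI : Nonempty P := hP.to_subtype
  obtain ⟨Φ, hΦmem, hΦsum, hΦft⟩ :=
    hcore P (InfinitePlace K) (fun v : P => e v) (fun w => Real.log (w (α : K)))
      (fun v => hfr.pos v v.2)
  obtain ⟨f, hf, hfc, hbi, hsupp, hsm, hfi, c₀, hc₀, hop⟩ := hΦall Φ hΦmem
  have hEK : IsEK K ν f α := by
    intro g g'
    have h1 : (fun j : ℤ => ∫ x, f (g⁻¹ * unip K x * torK K α ^ j * g') ∂ν)
        = fun j : ℤ => κ g g' * Φ (Δ g g' + j • coordTorM K P e α) := by
      funext j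
      exact hfi g g' j
    rw [h1]
    have h2 := (hΦsum (Δ g g')).mul_left (κ g g')
    rw [mul_zero] at h2
    exact h2
  have hstar : IsEK K ν (starG K f) α := hs ν hνH _ f hf hfc hEK
  have hsc : Continuous (starG K f) := by
    unfold starG
    exact (Complex.continuous_conj).comp (hf.comp continuous_inv)
  have hscc : HasCompactSupport (starG K f) := by
    unfold starG
    have h1 : HasCompactSupport (fun h : G K => f h⁻¹) := by
      have := hfc.comp_homeomorph (Homeomorph.inv (G K))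
      simpa [Function.comp_def] using this
    exact h1.comp_left (g := (starRingEnd ℂ)) (map_zero _)
  refine ⟨f, hf, hfc, hsm, ekOp_of_int K hk hμ hνH hf hfc hEK,
    ekOp_of_int K hk hμ hνH hsc hscc hstar, hbi, hsupp, ?_⟩
  classical
  refine ⟨fun a b m => if ∃ v ∈ P, b v = 0 then 1 else
    c₀ (fun v => H732.root1_732 (a v) (b v)) (fun v => H732.root2_732 (a v) (b v)) m, ?_, ?_⟩
  · intro a b m hgood hm
    by_cases hb : ∃ v ∈ P, b v = 0
    · simp only [if_pos hb]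
      exact one_ne_zero
    · simp only [if_neg hb]
      simp only [not_exists, not_and] at hb
      rw [hc₀ _ _ m hm]
      have hr₁ : ∀ v : P, H732.root1_732 (a v) (b v) ≠ 0 := fun v h =>
        hb v v.2 (by rw [← (H732.roots_spec732 (a v) (b v)).2, h, zero_mul])
      have hr₂ : ∀ v : P, H732.root2_732 (a v) (b v) ≠ 0 := fun v h =>
        hb v v.2 (by rw [← (H732.roots_spec732 (a v) (b v)).2, h, mul_zero])
      refine mul_ne_zero hκ₀ (hΦft _ _ hr₁ hr₂ ?_)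
      intro z hz
      have key := hgood (fun v => if h : v ∈ P then z ⟨v, h⟩ else 0) ?_
      · rw [← Finset.prod_coe_sort P] at key
        have e1 : ∀ v : P, (if h : (v : HeightOneSpectrum (𝓞 K)) ∈ P then
            z ⟨v, h⟩ else 0) = z v := fun v => by
          simp only [dif_pos v.2, Subtype.coe_eta]
        simpa only [e1] using key
      · intro v hv
        simp only [dif_pos hv]
        obtain ⟨hs', hp'⟩ := H732.roots_spec732 (a v) (b v)
        rcases hz ⟨v, hv⟩ with h | h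
        · rw [h]
          linear_combination (H732.root1_732 (a v) (b v)) * hs' - hp'
        · rw [h]
          linear_combination (H732.root2_732 (a v) (b v)) * hs' - hp'
  · intro φ m hφ a b hecke g
    by_cases hb : ∃ v ∈ P, b v = 0
    · simp only [if_pos hb, one_mul]
      obtain ⟨v, hv, hbv⟩ := hb
      have hecke' := hecke v hv
      rw [hbv] at hecke'
      have hzero : ∀ g : G K, φ g = 0 := H732.eq_zero_of_b_eq_zero732 K hSU hecke'
      rw [hzero g]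
      unfold Rop
      simp only [hzero, zero_mul, integral_zero]
    · simp only [if_neg hb]
      simp only [not_exists, not_and] at hb
      exact hop φ m hφ a b _ _ hecke (fun v _ => (H732.roots_spec732 (a v) (b v)).1)
        (fun v _ => (H732.roots_spec732 (a v) (b v)).2) hb g

/-- The output for the functions of parameter `0` from the general output. -/
theorem ekOpExistSmoothM_of_gen (h : EKOpExistGenMC K) : EKOpExistSmoothMC K := by
  intro hK μ hμ 𝔫 P e a₀ h𝔫 hP hPe hspan hmem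
  obtain ⟨f, h1, h2, h3, h4, h5, h6, h7, c, hc, hact⟩ :=
    h hK μ hμ 𝔫 P e a₀ h𝔫 hP hPe hspan hmem
  refine ⟨f, h1, h2, h3, h4, h5, h6, h7, fun a b => c a b (fun _ => sphM),
    fun a b hab => hc a b _ hab (fun _ _ _ => rfl), fun φ hφ a b he g => ?_⟩
  exact hact φ (fun _ => sphM) (isMeanLevel_of_sph0 K hK hφ) a b he g

end Fermat.Agent.LT.T3.M

end
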