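import Fermat.Agent.LT.T3.SmoothSpec
import Fermat.Agent.LT.T3.H893.NIntSpec

/-!
# Row LT, tower T3, station T3.18M (architect helper14): the MULTI-PLACE Eisenstein-killing
# test function -- THE CUT

OFF-MAIN.  Definitions and frozen Props only (the proved tops are `M/Top.lean`).  No hole, no
opaque constant, nothing assumed.  ADDITIVE: every file of the closed tower T3
(`origin/helper14@21d8599e0`) is unchanged and is imported as it is.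

## Why (ruling of helper797, `T7/EKM.lean`, `GoodEKM`; request #17026)

The single-place datum `(v₀, a₀, n)`, `(a₀) = 𝔭_{v₀}ⁿ`, needs the existence theorem of class field
theory.  The Eisenstein-killing device only needs a RATIONAL element `a₀ ≡ 1 mod 𝔫` whose ideal
is a product `∏_{v ∈ P} 𝔭_v^{e_v}` of primes not dividing `𝔫` (Chebotarev over `ℚ`: `a₀ = -p`).
This station delivers the test function for such a datum:

    `P` finite, non-empty, `v ∤ 𝔫`, `e_v > 0` (`v ∈ P`), `(a₀) = ∏_{v ∈ P} 𝔭_v^{e_v}`, `a₀ - 1 ∈ 𝔫`.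

## The coordinates

`CoordM K P = (ℤ²)^P × (ℝ²)^{S_∞}`, `c₀ = ((e_v, 0)_v, (log |α|_w, 0)_w)`.  Pure tensors
`f = ⊗_{v ∈ P} f₀_v ⊗ ⊗_w F_w ⊗ 1_{U^{S'}}`, `S' = P ∪ S_∞`, `Φ = ⊗_v A_v ⊗ ⊗_w β_w`.
Everything LOCAL is the closed single-place station (`AS.SatakeLocC`, `AS.AbelCplxSmoothC`,
`N893.IwasawaFormC`, `N893.AffineC`, `N893.LocValInfC`); `EKKillC`, `EKStarC`, `ConstTermTC` and
the bridge to T5 hold for every `α ∈ Kˣ` and every test function and are used as they are.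

## The leaves (each is the closed single-place proof with `v₀` replaced by `P`)

| leaf | Prop | single-place model (closed) |
|---|---|---|
| M.1 | `EKCoreC` (MATHLIB + this file) | `H732.exists_ekPhi732` (helper732) |
| M.2 | `FtPureC` (MATHLIB + this file) | `AS.ftCoord_pure` (helper736) |
| M.3 | `PureRegMC K` | `AS.PureRegC` (helper245) |
| M.4 | `ROpMC K` | `AS.ROpC` (helper57) |
| M.5 | `PureUpperMC K` | N.2 `PureUpperC` (helper846) |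
| M.6 | `OutsideCosetMC K` | N.3 `OutsideCosetC` (helper922) |
| M.7 | `SplitMC K` | N.5 `SplitC` (helper129 on 497, 322, 250, 904, 800) |
| M.8 | `LocValFinMC K` | N.6 `LocValFinC` (helper848) |
| M.9 | `ProdFormMC K` | N.8 `ProdFormC` (helper915) |

Tops (PROVED in `M/Top.lean`): `nIntM_of`, `abelSatakeSmoothM_of`, `ekExistSmoothM_of`,
`ekOpExistSmoothM_of`, `exists_testFn_T5_M`.

Every leaf may be delivered in the form `T1.T1Out K → Leaf` (tower T1 is closed).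
-/

set_option autoImplicit false
set_option linter.style.haveILetI false

open IsDedekindDomain NumberField MeasureTheory
open Fermat.Agent.LT.H556.A0

noncomputable section

namespace Fermat.Agent.LT.T3.M

open Fermat.Agent.LT.T3.AS Fermat.Agent.LT.T3.AS.N893

/-! ## 0. Coordinates (no number field) -/

section Crd

variable (ι₁ ι₂ : Type)

/-- The coordinate group `(ℤ²)^{ι₁} × (ℝ²)^{ι₂}`. -/
abbrev Crd : Type := (ι₁ → ℤ × ℤ) × (ι₂ → ℝ × ℝ)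

variable {ι₁ ι₂}

/-- The element `c₀ = ((e_i, 0)_i, (ℓ_w, 0)_w)`. -/
def c0 (e : ι₁ → ℕ) (ℓ : ι₂ → ℝ) : Crd ι₁ ι₂ :=
  (fun i => (((e i : ℕ) : ℤ), 0), fun w => (ℓ w, 0))

/-- The pure tensor `Φ(m, x) = ∏_i A_i(m_i) ∏_w β_w(x_w)`. -/
def pureCrd [Fintype ι₁] [Fintype ι₂] (A : ι₁ → ℤ × ℤ → ℂ) (β : ι₂ → ℝ × ℝ → ℂ) :
    Crd ι₁ ι₂ → ℂ :=
  fun p => (∏ i, A i (p.1 i)) * ∏ w, β w (p.2 w)

variable (ι₁ ι₂)

/-- A symmetric pure tensor. -/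
def IsSymPureCrd [Fintype ι₁] [Fintype ι₂] (Φ : Crd ι₁ ι₂ → ℂ) : Prop :=
  ∃ (A : ι₁ → ℤ × ℤ → ℂ) (β : ι₂ → ℝ × ℝ → ℂ),
    (∀ i, IsSymFin (A i)) ∧ (∀ w, IsSymBump (β w)) ∧ Φ = pureCrd A β

/-- The span of the symmetric pure tensors. -/
def SymSpanCrd [Fintype ι₁] [Fintype ι₂] : Submodule ℂ (Crd ι₁ ι₂ → ℂ) :=
  Submodule.span ℂ {Φ | IsSymPureCrd ι₁ ι₂ Φ}

variable {ι₁ ι₂}

/-- The Fourier--Laplace transform at the unramified character with Satake parameters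
`(z₁ i, z₂ i)` at `i ∈ ι₁`, trivial at `ι₂`:
`Φ^(z₁, z₂) = ∑_m (∫ Φ(m, x) dx) ∏_i z₁ᵢ^{m_{i,1}} z₂ᵢ^{m_{i,2}}`. -/
def ftCrd [Fintype ι₁] [Fintype ι₂] (Φ : Crd ι₁ ι₂ → ℂ) (z₁ z₂ : ι₁ → ℂ) : ℂ :=
  ∑ᶠ m : ι₁ → ℤ × ℤ, (∫ x : ι₂ → ℝ × ℝ, Φ (m, x)) * ∏ i, (z₁ i ^ (m i).1 * z₂ i ^ (m i).2)

/-- **M.1 (the core; pure algebra in the group algebra of the coordinate group; MATHLIB + the
definitions above).**  `Φ₁ = ⊗_i δ_{(0,0)} ⊗ ⊗_w (bump ⊗ bump)`,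
`Φ = ∏_{c ∈ W c₀} (1 - τ_c) Φ₁`, `W = {swaps}^{ι₁ ⊔ ι₂}` (product over the `2^{|ι₁| + |ι₂|}`
sign choices, with multiplicity): `Φ ∈ SymSpanCrd` (average over `W`), `Φ = (1 - τ_{c₀}) Φ₂`
telescopes (finite sums because `e_i > 0` and `ι₁ ≠ ∅`), and
`Φ^(z₁,z₂) = (∫ bump)^{2 |ι₂|} ∏_{s ∈ W} (1 - ∏_i z_{s_i, i}^{e_i})`.
Model: `H732.exists_ekPhi732` (helper732, `LT/T3/H732/EKCore.lean`), which is the case
`ι₁ = Unit`. -/
def EKCoreC : Prop :=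
  ∀ (ι₁ ι₂ : Type) [Fintype ι₁] [Fintype ι₂] [Nonempty ι₁] (e : ι₁ → ℕ) (ℓ : ι₂ → ℝ),
    (∀ i, 0 < e i) →
    ∃ Φ : Crd ι₁ ι₂ → ℂ, Φ ∈ SymSpanCrd ι₁ ι₂ ∧
      (∀ Δ : Crd ι₁ ι₂, HasSum (fun j : ℤ => Φ (Δ + j • c0 e ℓ)) 0) ∧
      ∀ z₁ z₂ : ι₁ → ℂ, (∀ i, z₁ i ≠ 0) → (∀ i, z₂ i ≠ 0) →
        (∀ z : ι₁ → ℂ, (∀ i, z i = z₁ i ∨ z i = z₂ i) → ∏ i, z i ^ e i ≠ 1) →
        ftCrd Φ z₁ z₂ ≠ 0

/-- **M.2 (`ftCrd` of a pure tensor; MATHLIB + the definitions above).**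
`∑_{m ∈ (ℤ²)^{ι₁}} ∏_i = ∏_i ∑_{m_i ∈ ℤ²}` for finitely supported factors
(`Finset.prod_univ_sum` on `Fintype.piFinset`), `integral_fintype_prod_volume_eq_prod`.
Model: `AS.ftCoord_pure` (helper736, `LT/T3/H736/ASTop.lean`). -/
def FtPureC : Prop :=
  ∀ (ι₁ ι₂ : Type) [Fintype ι₁] [Fintype ι₂] (A : ι₁ → ℤ × ℤ → ℂ) (β : ι₂ → ℝ × ℝ → ℂ),
    (∀ i, (Function.support (A i)).Finite) →
    ∀ z₁ z₂ : ι₁ → ℂ,
      ftCrd (pureCrd A β) z₁ z₂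
        = (∏ i, laurent (A i) (z₁ i) (z₂ i)) * ∏ w, ∫ x : ℝ × ℝ, β w x

end Crd

variable (K : Type) [Field K] [NumberField K]

/-! ## 1. Vocabulary over the number field -/

/-- The coordinate group at `S' = P ∪ S_∞`: `(ℤ²)^P × (ℝ²)^{S_∞}`. -/
abbrev CoordM (P : Finset (HeightOneSpectrum (𝓞 K))) : Type :=
  Crd P (InfinitePlace K)

/-- The coordinates `c₀` of `γ₀ = diag(α, 1)` when `(α) = ∏_{v ∈ P} 𝔭_v^{e_v}`. -/
def coordTorM (P : Finset (HeightOneSpectrum (𝓞 K))) (e : HeightOneSpectrum (𝓞 K) → ℕ)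
    (α : Kˣ) : CoordM K P :=
  c0 (fun v : P => e v) (fun w : InfinitePlace K => Real.log (w (α : K)))

/-- The pure tensor on the coordinate group for families indexed by ALL places (only the
places of `P` are used). -/
def pureCoordM (P : Finset (HeightOneSpectrum (𝓞 K)))
    (A : HeightOneSpectrum (𝓞 K) → ℤ × ℤ → ℂ) (β : InfinitePlace K → ℝ × ℝ → ℂ) :
    CoordM K P → ℂ :=
  pureCrd (fun v : P => A v) β

/-- `ftCrd` for families of Satake parameters indexed by ALL places. -/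
def ftCoordM (P : Finset (HeightOneSpectrum (𝓞 K))) (Φ : CoordM K P → ℂ)
    (z₁ z₂ : HeightOneSpectrum (𝓞 K) → ℂ) : ℂ :=
  ftCrd Φ (fun v : P => z₁ v) (fun v : P => z₂ v)

/-- The span of the symmetric pure tensors on `CoordM K P`. -/
abbrev SymSpanM (P : Finset (HeightOneSpectrum (𝓞 K))) : Submodule ℂ (CoordM K P → ℂ) :=
  SymSpanCrd P (InfinitePlace K)

/-- At every finite place `v ∉ P` the component of `h` lies in `U(𝔫)_v`. -/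
def OutsideUM (𝔫 : Ideal (𝓞 K)) (P : Finset (HeightOneSpectrum (𝓞 K))) (h : G K) : Prop :=
  ∀ v : HeightOneSpectrum (𝓞 K), v ∉ P → ∀ i j : Fin 2,
    (finComp v h - 1) i j ∈ idealClosure 𝔫 v ∧ (finComp v h⁻¹ - 1) i j ∈ idealClosure 𝔫 v

/-- `f` is supported at `P ∪ S_∞`. -/
def IsSuppAtM (𝔫 : Ideal (𝓞 K)) (P : Finset (HeightOneSpectrum (𝓞 K))) (f : G K → ℂ) : Prop :=
  ∀ h : G K, f h ≠ 0 → OutsideUM K 𝔫 P h

open Classical in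
/-- THE PURE TENSOR `⊗_{v ∈ P} f₀_v ⊗ ⊗_w F_w ⊗ 1_{U^{S'}}`, `S' = P ∪ S_∞`. -/
def pureFnM (𝔫 : Ideal (𝓞 K)) (P : Finset (HeightOneSpectrum (𝓞 K)))
    (f₀ : ∀ v : HeightOneSpectrum (𝓞 K), GL (Fin 2) (v.adicCompletion K) → ℂ)
    (F : InfinitePlace K → GL (Fin 2) ℂ → ℂ) (h : G K) : ℂ :=
  if OutsideUM K 𝔫 P h then
    (∏ v ∈ P, f₀ v (finGL K v h)) * ∏ w : InfinitePlace K, F w (infGL K w h)
  else 0

/-- The open subgroup `E₀ = {X : X_v ∈ 𝔫 𝒪_v for all finite v ∉ P}` of `𝔸_K`. -/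
def outGrpM (𝔫 : Ideal (𝓞 K)) (P : Finset (HeightOneSpectrum (𝓞 K))) : Set (Adl K) :=
  {X | ∀ v : HeightOneSpectrum (𝓞 K), v ∉ P → finHom K v X ∈ idealClosure 𝔫 v}

/-- THE MULTI-PLACE DATUM `(𝔫, P, e, a₀, α)`:
`P ≠ ∅`, `v ∤ 𝔫` and `e_v > 0` for `v ∈ P`, `(a₀) = ∏_{v ∈ P} 𝔭_v^{e_v}`, `a₀ ≡ 1 mod 𝔫`,
`α = a₀` in `Kˣ`.  (The clauses of `T7.GoodEKM`.) -/
structure FrameM (𝔫 : Ideal (𝓞 K)) (P : Finset (HeightOneSpectrum (𝓞 K)))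
    (e : HeightOneSpectrum (𝓞 K) → ℕ) (a₀ : 𝓞 K) (α : Kˣ) : Prop where
  level : 𝔫 ≠ ⊥
  nonempty : P.Nonempty
  prime : ∀ v ∈ P, ¬ v.asIdeal ∣ 𝔫
  pos : ∀ v ∈ P, 0 < e v
  span : Ideal.span {a₀} = ∏ v ∈ P, v.asIdeal ^ e v
  cong : a₀ - 1 ∈ 𝔫
  coe : (α : K) = algebraMap (𝓞 K) K a₀

/-! ## 2. The global leaves of the Abel--Satake pair -/

/-- **M.3 (regularity of the pure tensor).**  Model: `AS.PureRegC` (helper245). -/
def PureRegMC : Prop :=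
  ∀ 𝔫 : Ideal (𝓞 K), 𝔫 ≠ ⊥ → ∀ P : Finset (HeightOneSpectrum (𝓞 K)),
    (∀ v ∈ P, ¬ v.asIdeal ∣ 𝔫) →
  ∀ (f₀ : ∀ v : HeightOneSpectrum (𝓞 K), GL (Fin 2) (v.adicCompletion K) → ℂ)
    (F : InfinitePlace K → GL (Fin 2) ℂ → ℂ),
    (∀ v ∈ P, IsBiIntInv v (f₀ v)) →
    (∀ v ∈ P, ∃ R : Finset (GL (Fin 2) (v.adicCompletion K)), IsRepSys v (f₀ v) R) →
    (∀ w, IsCplxTest (F w)) →
    Continuous (pureFnM K 𝔫 P f₀ F) ∧ HasCompactSupport (pureFnM K 𝔫 P f₀ F) ∧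
      IsBiInv K 𝔫 (pureFnM K 𝔫 P f₀ F) ∧ IsSuppAtM K 𝔫 P (pureFnM K 𝔫 P f₀ F)

/-- **AS.4 in the multi-place form (NODE; top `nIntM_of` in `M/Top.lean`).**
`∫_{𝔸_K} f(g⁻¹ n(x) γ₀ʲ g') dν(x) = κ(g,g') Φ(Δ(g,g') + j c₀)` for the pure tensors, `κ` and
`Δ` independent of the pure tensor. -/
def NIntMC : Prop :=
  letI : MeasurableSpace (Adl K) := borel (Adl K)
  (∀ w : InfinitePlace K, w.IsComplex) →
  ∀ ν : Measure (Adl K), ν.IsAddHaarMeasure →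
  ∀ (𝔫 : Ideal (𝓞 K)) (P : Finset (HeightOneSpectrum (𝓞 K)))
    (e : HeightOneSpectrum (𝓞 K) → ℕ) (a₀ : 𝓞 K) (α : Kˣ), FrameM K 𝔫 P e a₀ α →
    ∃ (κ : G K → G K → ℂ) (Δ : G K → G K → CoordM K P),
      ∀ (A : HeightOneSpectrum (𝓞 K) → ℤ × ℤ → ℂ) (β : InfinitePlace K → ℝ × ℝ → ℂ)
        (f₀ : ∀ v : HeightOneSpectrum (𝓞 K), GL (Fin 2) (v.adicCompletion K) → ℂ)
        (F : InfinitePlace K → GL (Fin 2) ℂ → ℂ),
        (∀ v ∈ P, IsBiIntInv v (f₀ v)) →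
        (∀ v ∈ P, ∃ R : Finset (GL (Fin 2) (v.adicCompletion K)), IsRepSys v (f₀ v) R) →
        (∀ v ∈ P, HasSatakeN v (f₀ v) (A v)) →
        (∀ w, IsCplxTest (F w)) → (∀ w, HasAbelN (F w) (β w)) →
        ∀ (g g' : G K) (j : ℤ),
          Integrable (fun x => pureFnM K 𝔫 P f₀ F (g⁻¹ * unip K x * torK K α ^ j * g')) ν ∧
          ∫ x, pureFnM K 𝔫 P f₀ F (g⁻¹ * unip K x * torK K α ^ j * g') ∂ν
            = κ g g' * pureCoordM K P A β (Δ g g' + j • coordTorM K P e α)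

/-- **M.4 (the operator of a pure tensor).**  Model: `AS.ROpC` (helper57): the coset sums at the
places of `P` one after the other (`HasSatakeEigen` at each `v ∈ P`), then the infinite
places. -/
def ROpMC : Prop :=
  letI : MeasurableSpace (G K) := borel (G K)
  letI : MeasurableSpace (GL (Fin 2) ℂ) := borel (GL (Fin 2) ℂ)
  (∀ w : InfinitePlace K, w.IsComplex) →
  ∀ μ : Measure (G K), μ.IsHaarMeasure →
  ∀ μc : Measure (GL (Fin 2) ℂ), μc.IsHaarMeasure →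
  ∀ 𝔫 : Ideal (𝓞 K), 𝔫 ≠ ⊥ → ∀ P : Finset (HeightOneSpectrum (𝓞 K)),
    (∀ v ∈ P, ¬ v.asIdeal ∣ 𝔫) →
    ∃ κ₁ : ℂ, κ₁ ≠ 0 ∧
      ∀ (A : HeightOneSpectrum (𝓞 K) → ℤ × ℤ → ℂ) (C : InfinitePlace K → ℂ)
        (f₀ : ∀ v : HeightOneSpectrum (𝓞 K), GL (Fin 2) (v.adicCompletion K) → ℂ)
        (F : InfinitePlace K → GL (Fin 2) ℂ → ℂ),
        (∀ v ∈ P, IsBiIntInv v (f₀ v)) →
        (∀ v ∈ P, ∃ R : Finset (GL (Fin 2) (v.adicCompletion K)), IsRepSys v (f₀ v) R) →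
        (∀ v ∈ P, HasSatakeEigen v (f₀ v) (A v)) →
        (∀ w, IsCplxTest (F w)) → (∀ w, ActsBy μc (F w) (C w)) →
        ∀ φ : G K → ℂ, IsSph0Level K 𝔫 φ →
        ∀ a b z₁ z₂ : HeightOneSpectrum (𝓞 K) → ℂ,
          (∀ v ∈ P, IsHeckeEigenAt φ v (a v) (b v)) →
          (∀ v ∈ P, z₁ v + z₂ v = a v) → (∀ v ∈ P, z₁ v * z₂ v = b v) → (∀ v ∈ P, b v ≠ 0) →
          ∀ g : G K, Rop K μ (pureFnM K 𝔫 P f₀ F) φ g
            = κ₁ * (∏ v ∈ P, laurent (A v) (z₁ v) (z₂ v)) * (∏ w : InfinitePlace K, C w) * φ g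

/-! ## 3. The sub-leaves of `NIntMC` (the cut of helper893, multi-place) -/

open Classical in
/-- **M.5 = N.2 multi (the pure tensor on `K⁰ B K⁰`).**  Model: `N893.PureUpperC`
(helper846). -/
def PureUpperMC : Prop :=
  ∀ (𝔫 : Ideal (𝓞 K)) (P : Finset (HeightOneSpectrum (𝓞 K)))
    (f₀ : ∀ v : HeightOneSpectrum (𝓞 K), GL (Fin 2) (v.adicCompletion K) → ℂ)
    (F : InfinitePlace K → GL (Fin 2) ℂ → ℂ),
    (∀ v ∈ P, IsBiIntInv v (f₀ v)) → (∀ w, IsCplxTest (F w)) →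
    ∀ (k₁ k' : G K), T1.IsStdCompact K k₁ → T1.IsStdCompact K k' →
    ∀ (c₁ c₂ : (Adl K)ˣ) (X : Adl K),
      pureFnM K 𝔫 P f₀ F (k₁ * upperGL c₁ c₂ X * k')
        = (if OutsideUM K 𝔫 P (k₁ * upperGL c₁ c₂ X * k') then (1 : ℂ) else 0)
          * (∏ v ∈ P, f₀ v (upperGL (finU K v c₁) (finU K v c₂) (finHom K v X)))
          * ∏ w : InfinitePlace K, F w (upperGL (infU K w c₁) (infU K w c₂) (infHom K w X))

/-- **M.6 = N.3 multi (the condition outside `S'`).**  Model: `N893.OutsideCosetC`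
(helper922): `α` is a unit at every `v ∉ P` and `α ≡ 1 mod 𝔫`. -/
def OutsideCosetMC : Prop :=
  ∀ (𝔫 : Ideal (𝓞 K)) (P : Finset (HeightOneSpectrum (𝓞 K)))
    (e : HeightOneSpectrum (𝓞 K) → ℕ) (a₀ : 𝓞 K) (α : Kˣ), FrameM K 𝔫 P e a₀ α →
    ∀ (k₁ k' : G K), T1.IsStdCompact K k₁ → T1.IsStdCompact K k' →
    ∀ (c₁ c₂ : (Adl K)ˣ) (j j' : ℤ) (X X' : Adl K),
      OutsideUM K 𝔫 P (k₁ * upperGL (c₁ * T1.ratUnit K α ^ j) c₂ X * k') →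
      (OutsideUM K 𝔫 P (k₁ * upperGL (c₁ * T1.ratUnit K α ^ j') c₂ X' * k')
        ↔ X' - X ∈ outGrpM K 𝔫 P)

/-- **M.7 = N.5 multi (splitting of the Haar measure at `S' = P ∪ S_∞`).**  Model:
`N893.SplitC` (helper129).  `E₀ = ∏_w K_w × ∏_{v ∈ P} K_v × ∏_{v ∉ P} 𝔫 𝒪_v`; the image of
`ν|_{E₀}` under `X ↦ ((X_v)_{v ∈ P}, (X_w)_w)` is a Haar measure of `∏_{v ∈ P} K_v × ∏_w ℂ`. -/
def SplitMC : Prop :=
  letI : MeasurableSpace (Adl K) := borel (Adl K)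
  (∀ w : InfinitePlace K, w.IsComplex) →
  ∀ ν : Measure (Adl K), ν.IsAddHaarMeasure →
  ∀ 𝔫 : Ideal (𝓞 K), 𝔫 ≠ ⊥ → ∀ P : Finset (HeightOneSpectrum (𝓞 K)),
    ∃ ν₀ : ∀ v : HeightOneSpectrum (𝓞 K),
        @Measure (v.adicCompletion K) (borel (v.adicCompletion K)),
      (∀ v : HeightOneSpectrum (𝓞 K),
        @Measure.IsAddHaarMeasure (v.adicCompletion K) _ _ (borel (v.adicCompletion K))
          (ν₀ v)) ∧
      ∃ c₀ : ℂ,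
      ∀ (φ₀ : ∀ v : HeightOneSpectrum (𝓞 K), v.adicCompletion K → ℂ)
        (φ : InfinitePlace K → ℂ → ℂ),
        (∀ v ∈ P, Continuous (φ₀ v)) → (∀ v ∈ P, HasCompactSupport (φ₀ v)) →
        (∀ w, Continuous (φ w)) → (∀ w, HasCompactSupport (φ w)) →
        Integrable (fun X : Adl K => (outGrpM K 𝔫 P).indicator (fun _ => (1 : ℂ)) X
          * (∏ v ∈ P, φ₀ v (finHom K v X)) * ∏ w : InfinitePlace K, φ w (infHom K w X)) ν ∧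
        ∫ X, (outGrpM K 𝔫 P).indicator (fun _ => (1 : ℂ)) X
            * (∏ v ∈ P, φ₀ v (finHom K v X)) * ∏ w : InfinitePlace K, φ w (infHom K w X) ∂ν
          = c₀ * (∏ v ∈ P, ∫ x, φ₀ v x ∂(ν₀ v)) * ∏ w : InfinitePlace K, ∫ z : ℂ, φ w z

/-- **M.8 = N.6 multi (the local `N`-integral at `v ∈ P`).**  Model: `N893.LocValFinC`
(helper848) with `ordv_v α = e_v`. -/
def LocValFinMC : Prop :=
  ∀ (𝔫 : Ideal (𝓞 K)) (P : Finset (HeightOneSpectrum (𝓞 K)))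
    (e : HeightOneSpectrum (𝓞 K) → ℕ) (a₀ : 𝓞 K) (α : Kˣ), FrameM K 𝔫 P e a₀ α →
    ∀ v ∈ P,
    ∀ ν₀ : @Measure (v.adicCompletion K) (borel (v.adicCompletion K)),
      @Measure.IsAddHaarMeasure (v.adicCompletion K) _ _ (borel (v.adicCompletion K)) ν₀ →
    ∀ (f₀ : GL (Fin 2) (v.adicCompletion K) → ℂ) (A : ℤ × ℤ → ℂ),
      IsBiIntInv v f₀ → (∃ R : Finset (GL (Fin 2) (v.adicCompletion K)), IsRepSys v f₀ R) →
      HasSatakeN v f₀ A →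
      ∀ (c₁ c₂ : (Adl K)ˣ) (j : ℤ) (t : v.adicCompletion K),
        Continuous (fun x : v.adicCompletion K =>
          f₀ (upperGL (finU K v (c₁ * T1.ratUnit K α ^ j)) (finU K v c₂) (x + t))) ∧
        HasCompactSupport (fun x : v.adicCompletion K =>
          f₀ (upperGL (finU K v (c₁ * T1.ratUnit K α ^ j)) (finU K v c₂) (x + t))) ∧
        ∫ x, f₀ (upperGL (finU K v (c₁ * T1.ratUnit K α ^ j)) (finU K v c₂) (x + t)) ∂ν₀
          = ((ν₀ (v.adicCompletionIntegers K : Set (v.adicCompletion K))).toReal : ℂ)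
            * (((Ideal.absNorm v.asIdeal : ℝ) ^
                (-(((ordA K v c₁ + ordA K v c₂ : ℤ) : ℝ)) / 2) : ℝ) : ℂ)
            * ((((Ideal.absNorm v.asIdeal : ℝ) ^ (-(e v : ℝ) / 2)) ^ j : ℝ) : ℂ)
            * A (ordA K v c₁ + j * e v, ordA K v c₂)

/-- **M.9 = N.8 multi (product formula).**  `∏_w (w α)² = |N_{K/ℚ} α| = ∏_{v ∈ P} N(𝔭_v)^{e_v}`
for a totally complex field.  Model: `N893.ProdFormC` (helper915). -/
def ProdFormMC : Prop :=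
  (∀ w : InfinitePlace K, w.IsComplex) →
  ∀ (𝔫 : Ideal (𝓞 K)) (P : Finset (HeightOneSpectrum (𝓞 K)))
    (e : HeightOneSpectrum (𝓞 K) → ℕ) (a₀ : 𝓞 K) (α : Kˣ), FrameM K 𝔫 P e a₀ α →
    (∏ v ∈ P, (Ideal.absNorm v.asIdeal : ℝ) ^ (-(e v : ℝ) / 2))
      * ∏ w : InfinitePlace K, w (α : K) = 1

/-! ## 4. The nodes and the output -/

/-- **T3.18a, multi-place, smooth form** (NODE; top `abelSatakeSmoothM_of`). -/
def AbelSatakeSmoothMC : Prop :=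
  letI : MeasurableSpace (Adl K) := borel (Adl K)
  letI : MeasurableSpace (G K) := borel (G K)
  (∀ w : InfinitePlace K, w.IsComplex) →
  ∀ μ : Measure (G K), μ.IsHaarMeasure → ∀ ν : Measure (Adl K), ν.IsAddHaarMeasure →
  ∀ (𝔫 : Ideal (𝓞 K)) (P : Finset (HeightOneSpectrum (𝓞 K)))
    (e : HeightOneSpectrum (𝓞 K) → ℕ) (a₀ : 𝓞 K) (α : Kˣ), FrameM K 𝔫 P e a₀ α →
    ∃ (κ : G K → G K → ℂ) (Δ : G K → G K → CoordM K P) (κ₀ : ℂ), κ₀ ≠ 0 ∧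
      ∀ Φ : CoordM K P → ℂ, Φ ∈ SymSpanM K P →
        ∃ f : G K → ℂ, Continuous f ∧ HasCompactSupport f ∧
          IsBiInv K 𝔫 f ∧ IsSuppAtM K 𝔫 P f ∧ IsSmoothInf K f ∧
          (∀ (g g' : G K) (j : ℤ),
            ∫ x, f (g⁻¹ * unip K x * torK K α ^ j * g') ∂ν
              = κ g g' * Φ (Δ g g' + j • coordTorM K P e α)) ∧
          ∀ φ : G K → ℂ, IsSph0Level K 𝔫 φ →
          ∀ a b z₁ z₂ : HeightOneSpectrum (𝓞 K) → ℂ,
            (∀ v ∈ P, IsHeckeEigenAt φ v (a v) (b v)) →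
            (∀ v ∈ P, z₁ v + z₂ v = a v) → (∀ v ∈ P, z₁ v * z₂ v = b v) →
            (∀ v ∈ P, b v ≠ 0) →
            ∀ g : G K, Rop K μ f φ g = κ₀ * ftCoordM K P Φ z₁ z₂ * φ g

/-- The non-vanishing criterion, VERBATIM the last clause of `T7.GoodEKM`: for every choice of
roots `z_v` of `X² - a_v X + b_v` (`v ∈ P`): `∏_{v ∈ P} z_v^{e_v} ≠ 1`. -/
def GoodParamM (P : Finset (HeightOneSpectrum (𝓞 K))) (e : HeightOneSpectrum (𝓞 K) → ℕ)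
    (a b : HeightOneSpectrum (𝓞 K) → ℂ) : Prop :=
  ∀ z : HeightOneSpectrum (𝓞 K) → ℂ,
    (∀ v ∈ P, z v ^ 2 - a v * z v + b v = 0) → ∏ v ∈ P, z v ^ e v ≠ 1

/-- **T3.18, multi-place, integral form, smooth** (NODE; top `ekExistSmoothM_of`). -/
def EKExistSmoothMC : Prop :=
  letI : MeasurableSpace (Adl K) := borel (Adl K)
  letI : MeasurableSpace (G K) := borel (G K)
  (∀ w : InfinitePlace K, w.IsComplex) →
  ∀ μ : Measure (G K), μ.IsHaarMeasure → ∀ ν : Measure (Adl K), ν.IsAddHaarMeasure →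
  ∀ (𝔫 : Ideal (𝓞 K)) (P : Finset (HeightOneSpectrum (𝓞 K)))
    (e : HeightOneSpectrum (𝓞 K) → ℕ) (a₀ : 𝓞 K) (α : Kˣ), FrameM K 𝔫 P e a₀ α →
    ∃ f : G K → ℂ, Continuous f ∧ HasCompactSupport f ∧ IsSmoothInf K f ∧ IsEK K ν f α ∧
      IsBiInv K 𝔫 f ∧ IsSuppAtM K 𝔫 P f ∧
      ∃ c : (HeightOneSpectrum (𝓞 K) → ℂ) → (HeightOneSpectrum (𝓞 K) → ℂ) → ℂ,
        (∀ a b : HeightOneSpectrum (𝓞 K) → ℂ, GoodParamM K P e a b → c a b ≠ 0) ∧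
        ∀ φ : G K → ℂ, IsSph0Level K 𝔫 φ → ∀ a b : HeightOneSpectrum (𝓞 K) → ℂ,
          (∀ v ∈ P, IsHeckeEigenAt φ v (a v) (b v)) →
          ∀ g : G K, Rop K μ f φ g = c a b * φ g

/-- **THE OUTPUT of station T3.18M: existence in operator form, smooth** (consumed by T5 / T7;
`M/Top.lean` gives it in the vocabulary of T5: `exists_testFn_T5_M`).
`K` totally complex, `(𝔫, P, e, a₀)` as in `T7.GoodEKM`: there is `f`, continuous, of compact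
support, smooth at infinity, bi-invariant under `U(𝔫) K_∞`, supported at `P ∪ S_∞`, such that
`R(f)` and `R(f^*)` kill every `IsBorelInv` function and `R(f) φ = c(a,b) φ` for every `φ`
spherical of parameter `0` of level `𝔫`, Hecke-eigen at every `v ∈ P` with eigenvalues
`(a_v, b_v)`; `c(a,b) ≠ 0` under `GoodParamM`. -/
def EKOpExistSmoothMC : Prop :=
  letI : MeasurableSpace (G K) := borel (G K)
  (∀ w : InfinitePlace K, w.IsComplex) →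
  ∀ μ : Measure (G K), μ.IsHaarMeasure →
  ∀ (𝔫 : Ideal (𝓞 K)) (P : Finset (HeightOneSpectrum (𝓞 K)))
    (e : HeightOneSpectrum (𝓞 K) → ℕ) (a₀ : 𝓞 K),
    𝔫 ≠ ⊥ → P.Nonempty → (∀ v ∈ P, ¬ v.asIdeal ∣ 𝔫 ∧ 0 < e v) →
    Ideal.span {a₀} = ∏ v ∈ P, v.asIdeal ^ e v → a₀ - 1 ∈ 𝔫 →
    ∃ f : G K → ℂ, Continuous f ∧ HasCompactSupport f ∧ IsSmoothInf K f ∧
      IsEKop K μ f ∧ IsEKop K μ (starG K f) ∧
      IsBiInv K 𝔫 f ∧ IsSuppAtM K 𝔫 P f ∧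
      ∃ c : (HeightOneSpectrum (𝓞 K) → ℂ) → (HeightOneSpectrum (𝓞 K) → ℂ) → ℂ,
        (∀ a b : HeightOneSpectrum (𝓞 K) → ℂ, GoodParamM K P e a b → c a b ≠ 0) ∧
        ∀ φ : G K → ℂ, IsSph0Level K 𝔫 φ → ∀ a b : HeightOneSpectrum (𝓞 K) → ℂ,
          (∀ v ∈ P, IsHeckeEigenAt φ v (a v) (b v)) →
          ∀ g : G K, Rop K μ f φ g = c a b * φ g

/-- The leaves of the station which depend on the number field. -/
structure LeavesM : Prop where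
  pureReg : PureRegMC K
  rOp : ROpMC K
  pureUpper : PureUpperMC K
  outsideCoset : OutsideCosetMC K
  split : SplitMC K
  locValFin : LocValFinMC K
  prodForm : ProdFormMC K

end Fermat.Agent.LT.T3.M

end
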