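import Fermat.Agent.LT.T3.M.Closed
import Fermat.Agent.LT.T3.M.GenTop
import Fermat.Agent.LT.T3.M.H162.EKCore
import Fermat.Agent.LT.T3.M.H286.FtPure
import Fermat.Agent.LT.T3.M.H709.PureRegM
import Fermat.Agent.LT.T3.M.H474.ROpMeanM
import Fermat.Agent.LT.T3.M.H474.PureUpperM
import Fermat.Agent.LT.T3.M.H474.OutsideCosetM
import Fermat.Agent.LT.T3.M.H719.SplitM
import Fermat.Agent.LT.T3.M.H250.LocValFinM
import Fermat.Agent.LT.T3.M.H793.ProdFormM
import Fermat.Agent.LT.T3.M.H96.MeanActs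

/-!
# Row LT, tower T3, station T3.18M (architect helper14): THE STATION IS CLOSED

OFF-MAIN.  Complete proofs, nothing assumed: every statement of this file is UNCONDITIONAL.

The multi-place Eisenstein-killing test function (`T7.GoodEKM`, hedge route (B) of helper797) with
the GENERAL archimedean parameter (clause `op_up` of `T7.IsL2Data`).

## The leaves (all closed by the T3 squad; vendored byte-identical)

| leaf | Prop | closed by | file |
|---|---|---|---|
| M.1 | `EKCoreC` | helper162 | `M/H162/EKCore.lean` |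
| M.2 | `FtPureC` | helper286 | `M/H286/FtPure.lean` |
| M.3 | `PureRegMC K` | helper709 | `M/H709/PureRegM.lean` |
| M.4 | `ROpMC K` | helper474 (from G.2) | `M/H474/ROpM.lean` |
| M.5 | `PureUpperMC K` | helper474 | `M/H474/PureUpperM.lean` |
| M.6 | `OutsideCosetMC K` | helper474 | `M/H474/OutsideCosetM.lean` |
| M.7 | `SplitMC K` | helper719 | `M/H719/SplitM.lean` |
| M.8 | `LocValFinMC K` | helper250 | `M/H250/LocValFinM.lean` |
| M.9 | `ProdFormMC K` | helper793 | `M/H793/ProdFormM.lean` |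
| G.1 | `MeanActsC` | helper96 | `M/H96/MeanActs.lean` |
| G.2 | `ROpMeanMC K` | helper474 | `M/H474/ROpMeanM.lean` |

(Spares in bytes on the branches of helper194, helper826, helper749, helper893, helper756.)

## The outputs

* `openM_c : OpenM K`;
* `ekOpExistSmoothM_c : EKOpExistSmoothMC K` (functions of parameter `0` at infinity);
* `ekOpExistGenM_c : EKOpExistGenMC K` (general archimedean parameter);
* `exists_testFn_T5_M_c`, `exists_testFn_T5_G_c`: the same in the vocabulary of T5, with the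
  hypotheses of `T7.GoodEKM` verbatim.
-/

set_option autoImplicit false
set_option linter.style.haveILetI false

open IsDedekindDomain NumberField MeasureTheory
open Fermat.Agent.LT.H556.A0

noncomputable section

namespace Fermat.Agent.LT.T3.M

open Fermat.Agent.LT.T3.AS

variable (K : Type) [Field K] [NumberField K]

/-- G.2, closed (helper474). -/
theorem rOpMeanM_c : ROpMeanMC K := H474.rOpMeanMC474 K

/-- G.1, closed (helper96). -/
theorem meanActs_c : MeanActsC := H96.meanActsC96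

/-- **The open part of station T3.18M is empty.** -/
theorem openM_c : OpenM K where
  core := H162.ekCoreC162
  ftPure := H286.ftPureC286
  pureReg := H709.pureRegMC709 K
  rOp := rOpM_of_mean K (rOpMeanM_c K)
  pureUpper := H474.pureUpperMC474 K
  outsideCoset := H474.outsideCosetMC474 K
  split := H719.splitMC719 K
  locValFin := H250.locValFinMC250 K
  prodForm := H793.prodFormMC793 K

/-- The multi-place `N`-integral, unconditional. -/
theorem nIntM_c : NIntMC K := nIntM_of_open K (openM_c K)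

/-- The multi-place Abel--Satake pair, unconditional. -/
theorem abelSatakeSmoothM_c : AbelSatakeSmoothMC K := abelSatakeSmoothM_of_open K (openM_c K)

/-- The multi-place EK function, integral form, unconditional. -/
theorem ekExistSmoothM_c : EKExistSmoothMC K := ekExistSmoothM_of_open K (openM_c K)

/-- **THE OUTPUT of station T3.18M, unconditional** (functions of parameter `0`). -/
theorem ekOpExistSmoothM_c : EKOpExistSmoothMC K := ekOpExistSmoothM_of_open K (openM_c K)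

/-- The multi-place Abel--Satake pair with the general archimedean parameter, unconditional. -/
theorem abelSatakeGenM_c : AbelSatakeGenMC K :=
  abelSatakeGenM_of K (satakeLoc_closed K) abelCplxSmooth_closed meanActs_c
    (openM_c K).ftPure (openM_c K).pureReg (nIntM_c K) (rOpMeanM_c K)

/-- **THE OUTPUT of station T3.18M, general archimedean parameter, unconditional.** -/
theorem ekOpExistGenM_c : EKOpExistGenMC K :=
  ekOpExistGenM_of K (abelSatakeGenM_c K) (openM_c K).core (inScalarUnif_u K) (ekKill_u K)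
    (ekStar_u K) (inAddHaar_u K)

/-- **The output of station T3.18M in the vocabulary of T5, unconditional** (functions of
parameter `0`), with the hypotheses of `T7.GoodEKM` VERBATIM. -/
theorem exists_testFn_T5_M_c (hK : ∀ w : InfinitePlace K, w.IsComplex)
    (μ : @Measure (G K) (borel (G K)))
    (hμ : @Measure.IsHaarMeasure (G K) _ _ (borel (G K)) μ)
    (𝔫 : Ideal (𝓞 K)) (h𝔫 : 𝔫 ≠ ⊥) (P : Finset (HeightOneSpectrum (𝓞 K)))
    (e : HeightOneSpectrum (𝓞 K) → ℕ) (a₀ : 𝓞 K) (hP : P.Nonempty)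
    (hPe : ∀ v ∈ P, ¬ v.asIdeal ∣ 𝔫 ∧ 0 < e v)
    (hspan : Ideal.span {a₀} = ∏ v ∈ P, v.asIdeal ^ e v) (hmem : a₀ - 1 ∈ 𝔫) :
    ∃ f : G K → ℂ, T5.IsTestFn 𝔫 T5.trivType f ∧ T5.IsEK μ f ∧ T5.IsEK μ (T5.adjointFn f) ∧
      IsSuppAtM K 𝔫 P f ∧
      ∃ c : (HeightOneSpectrum (𝓞 K) → ℂ) → (HeightOneSpectrum (𝓞 K) → ℂ) → ℂ,
        (∀ a b : HeightOneSpectrum (𝓞 K) → ℂ, GoodParamM K P e a b → c a b ≠ 0) ∧
        ∀ φ : G K → ℂ, IsSph0Level K 𝔫 φ → ∀ a b : HeightOneSpectrum (𝓞 K) → ℂ,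
          (∀ v ∈ P, IsHeckeEigenAt φ v (a v) (b v)) →
          ∀ g : G K, T5.Rconv μ f φ g = c a b * φ g :=
  exists_testFn_T5_M_of_open K (openM_c K) hK μ hμ 𝔫 h𝔫 P e a₀ hP hPe hspan hmem

/-- **The output of station T3.18M in the vocabulary of T5, general archimedean parameter**,
from the operator form. -/
theorem exists_testFn_T5_G (h : EKOpExistGenMC K) (hK : ∀ w : InfinitePlace K, w.IsComplex)
    (μ : @Measure (G K) (borel (G K)))
    (hμ : @Measure.IsHaarMeasure (G K) _ _ (borel (G K)) μ)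
    (𝔫 : Ideal (𝓞 K)) (h𝔫 : 𝔫 ≠ ⊥) (P : Finset (HeightOneSpectrum (𝓞 K)))
    (e : HeightOneSpectrum (𝓞 K) → ℕ) (a₀ : 𝓞 K) (hP : P.Nonempty)
    (hPe : ∀ v ∈ P, ¬ v.asIdeal ∣ 𝔫 ∧ 0 < e v)
    (hspan : Ideal.span {a₀} = ∏ v ∈ P, v.asIdeal ^ e v) (hmem : a₀ - 1 ∈ 𝔫) :
    ∃ f : G K → ℂ, T5.IsTestFn 𝔫 T5.trivType f ∧ T5.IsEK μ f ∧ T5.IsEK μ (T5.adjointFn f) ∧
      IsSuppAtM K 𝔫 P f ∧
      ∃ c : (HeightOneSpectrum (𝓞 K) → ℂ) → (HeightOneSpectrum (𝓞 K) → ℂ) →
          (InfinitePlace K → ℝ → ℂ) → ℂ,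
        (∀ (a b : HeightOneSpectrum (𝓞 K) → ℂ) (m : InfinitePlace K → ℝ → ℂ),
          GoodParamM K P e a b → IsSph0Param K m → c a b m ≠ 0) ∧
        ∀ (φ : G K → ℂ) (m : InfinitePlace K → ℝ → ℂ), IsMeanLevel K 𝔫 m φ →
        ∀ a b : HeightOneSpectrum (𝓞 K) → ℂ,
          (∀ v ∈ P, IsHeckeEigenAt φ v (a v) (b v)) →
          ∀ g : G K, T5.Rconv μ f φ g = c a b m * φ g := by
  obtain ⟨f, h1, h2, h3, h4, h5, h6, h7, c, hc, hact⟩ :=
    h hK μ hμ 𝔫 P e a₀ h𝔫 hP hPe hspan hmem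
  refine ⟨f, isTestFn_T5 K h1 h2 h3 h6, isEK_T5 K h4, isEK_T5 K h5, h7, c, hc, ?_⟩
  intro φ m hφ a b he g
  rw [← hact φ m hφ a b he g]
  unfold Rop T5.Rconv
  refine integral_congr_ae (Filter.Eventually.of_forall fun y => ?_)
  exact mul_comm _ _

/-- **The output of station T3.18M in the vocabulary of T5, general archimedean parameter,
unconditional**, with the hypotheses of `T7.GoodEKM` VERBATIM. -/
theorem exists_testFn_T5_G_c (hK : ∀ w : InfinitePlace K, w.IsComplex)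
    (μ : @Measure (G K) (borel (G K)))
    (hμ : @Measure.IsHaarMeasure (G K) _ _ (borel (G K)) μ)
    (𝔫 : Ideal (𝓞 K)) (h𝔫 : 𝔫 ≠ ⊥) (P : Finset (HeightOneSpectrum (𝓞 K)))
    (e : HeightOneSpectrum (𝓞 K) → ℕ) (a₀ : 𝓞 K) (hP : P.Nonempty)
    (hPe : ∀ v ∈ P, ¬ v.asIdeal ∣ 𝔫 ∧ 0 < e v)
    (hspan : Ideal.span {a₀} = ∏ v ∈ P, v.asIdeal ^ e v) (hmem : a₀ - 1 ∈ 𝔫) :
    ∃ f : G K → ℂ, T5.IsTestFn 𝔫 T5.trivType f ∧ T5.IsEK μ f ∧ T5.IsEK μ (T5.adjointFn f) ∧
      IsSuppAtM K 𝔫 P f ∧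
      ∃ c : (HeightOneSpectrum (𝓞 K) → ℂ) → (HeightOneSpectrum (𝓞 K) → ℂ) →
          (InfinitePlace K → ℝ → ℂ) → ℂ,
        (∀ (a b : HeightOneSpectrum (𝓞 K) → ℂ) (m : InfinitePlace K → ℝ → ℂ),
          GoodParamM K P e a b → IsSph0Param K m → c a b m ≠ 0) ∧
        ∀ (φ : G K → ℂ) (m : InfinitePlace K → ℝ → ℂ), IsMeanLevel K 𝔫 m φ →
        ∀ a b : HeightOneSpectrum (𝓞 K) → ℂ,
          (∀ v ∈ P, IsHeckeEigenAt φ v (a v) (b v)) →
          ∀ g : G K, T5.Rconv μ f φ g = c a b m * φ g :=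
  exists_testFn_T5_G K (ekOpExistGenM_c K) hK μ hμ 𝔫 h𝔫 P e a₀ hP hPe hspan hmem

end Fermat.Agent.LT.T3.M

end
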