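import Fermat.Agent.LT.T3.M.Spec

/-!
# Row LT, tower T3, station T3.18M (architect helper14): THE TOP of the multi-place `N`-integral

OFF-MAIN.  Complete proof, nothing assumed.

`nIntM_of : N893.IwasawaFormC K → PureUpperMC K → OutsideCosetMC K → N893.AffineC K → SplitMC K →
LocValFinMC K → N893.LocValInfC K → ProdFormMC K → NIntMC K`
(the top `nIntC_of893` of helper893 with the finite set `P` in place of `v₀`).
-/

set_option autoImplicit false
set_option linter.style.haveILetI false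

open IsDedekindDomain NumberField MeasureTheory
open Fermat.Agent.LT.H556.A0

noncomputable section

namespace Fermat.Agent.LT.T3.M

open Fermat.Agent.LT.T3.AS Fermat.Agent.LT.T3.AS.N893

variable (K : Type) [Field K] [NumberField K]

/-- The coordinates of the translate `Δ + j c₀`. -/
theorem pureCoordM_shift (P : Finset (HeightOneSpectrum (𝓞 K)))
    (A : HeightOneSpectrum (𝓞 K) → ℤ × ℤ → ℂ) (β : InfinitePlace K → ℝ × ℝ → ℂ)
    (o₁ o₂ : HeightOneSpectrum (𝓞 K) → ℤ) (l₁ l₂ : InfinitePlace K → ℝ)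
    (e : HeightOneSpectrum (𝓞 K) → ℕ) (α : Kˣ) (j : ℤ) :
    pureCoordM K P A β (((fun v : P => (o₁ v, o₂ v)), fun w => (l₁ w, l₂ w))
        + j • coordTorM K P e α)
      = (∏ v ∈ P, A v (o₁ v + j * e v, o₂ v)) * ∏ w : InfinitePlace K,
          β w (l₁ w + j * Real.log (w (α : K)), l₂ w) := by
  unfold pureCoordM pureCrd coordTorM c0
  simp only [Prod.smul_mk, Prod.mk_add_mk, Pi.add_apply, Pi.smul_apply]
  simp only [smul_eq_mul, mul_zero, add_zero, zsmul_eq_mul]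
  rw [Finset.prod_coe_sort P (fun v => A v (o₁ v + j * (e v : ℤ), o₂ v))]

/-- The constant algebra of the top. -/
theorem top_algebraM (ι₁ ι₂ : Type) [Fintype ι₂] (P : Finset ι₁) (ca c₀ : ℂ)
    (V q0 qn A : ι₁ → ℂ) (N y B : ι₂ → ℂ) (j : ℤ)
    (hprod : (∏ v ∈ P, qn v) * ∏ w, y w = 1) :
    ca * (c₀ * (∏ v ∈ P, V v * q0 v * qn v ^ j * A v) * ∏ w, (N w * y w ^ j) * B w)
      = (ca * c₀ * (∏ v ∈ P, V v * q0 v) * ∏ w, N w) * ((∏ v ∈ P, A v) * ∏ w, B w) := by
  have h1 : ∏ w, (N w * y w ^ j) * B w = (∏ w, N w) * (∏ w, y w) ^ j * ∏ w, B w := by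
    rw [Finset.prod_mul_distrib, Finset.prod_mul_distrib, Finset.prod_zpow]
  have h0 : ∏ v ∈ P, V v * q0 v * qn v ^ j * A v
      = (∏ v ∈ P, V v * q0 v) * (∏ v ∈ P, qn v) ^ j * ∏ v ∈ P, A v := by
    rw [Finset.prod_mul_distrib, Finset.prod_mul_distrib, Finset.prod_zpow]
  have h2 : (∏ v ∈ P, qn v) ^ j * (∏ w, y w) ^ j = 1 := by
    rw [← mul_zpow, hprod, one_zpow]
  rw [h1, h0]
  calc ca * (c₀ * ((∏ v ∈ P, V v * q0 v) * (∏ v ∈ P, qn v) ^ j * ∏ v ∈ P, A v)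
        * ((∏ w, N w) * (∏ w, y w) ^ j * ∏ w, B w))
      = (ca * c₀ * (∏ v ∈ P, V v * q0 v) * ∏ w, N w) * ((∏ v ∈ P, A v) * ∏ w, B w)
          * ((∏ v ∈ P, qn v) ^ j * (∏ w, y w) ^ j) := by ring
    _ = (ca * c₀ * (∏ v ∈ P, V v * q0 v) * ∏ w, N w) * ((∏ v ∈ P, A v) * ∏ w, B w) := by
        rw [h2, mul_one]

/-- **THE TOP of the multi-place `N`-integral.** -/
theorem nIntM_of (h1 : IwasawaFormC K) (h2 : PureUpperMC K) (h3 : OutsideCosetMC K)
    (h4 : AffineC K) (h5 : SplitMC K) (h6 : LocValFinMC K) (h7 : LocValInfC K)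
    (h8 : ProdFormMC K) : NIntMC K := by
  intro hcplx ν hν 𝔫 P e a₀ α hfr
  letI : MeasurableSpace (Adl K) := borel (Adl K)
  obtain ⟨ν₀, hν₀, c₀, hsplit⟩ := h5 hcplx ν hν 𝔫 hfr.level P
  choose k₁ k' c₁ c₂ a hk₁ hk' hform using h1 α
  choose ca hca using fun g g' : G K => h4 ν hν (a g g')
  have hprodform := h8 hcplx 𝔫 P e a₀ α hfr
  classical
  refine ⟨fun g g' =>
      if ∃ (j : ℤ) (X : Adl K), OutsideUM K 𝔫 P
          (k₁ g g' * upperGL (c₁ g g' * T1.ratUnit K α ^ j) (c₂ g g') X * k' g g') then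
        ca g g' * c₀
          * (∏ v ∈ P,
              ((ν₀ v (v.adicCompletionIntegers K : Set (v.adicCompletion K))).toReal : ℂ)
              * (((Ideal.absNorm v.asIdeal : ℝ) ^
                (-(((ordA K v (c₁ g g') + ordA K v (c₂ g g') : ℤ) : ℝ)) / 2) : ℝ) : ℂ))
          * ∏ w : InfinitePlace K, ((‖((infU K w (c₁ g g') : ℂˣ) : ℂ)‖
              * ‖((infU K w (c₂ g g') : ℂˣ) : ℂ)‖ : ℝ) : ℂ)
      else 0,
    fun g g' => ((fun v : P => (ordA K v (c₁ g g'), ordA K v (c₂ g g'))),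
      fun w => (Real.log ‖((infU K w (c₁ g g') : ℂˣ) : ℂ)‖,
        Real.log ‖((infU K w (c₂ g g') : ℂˣ) : ℂ)‖)), ?_⟩
  intro A β f₀ F hf₀ hR hSat hF hAb g g' j
  obtain ⟨r, hr⟩ := hform g g' j
  -- the pure tensor in upper triangular form
  have hP : ∀ x : Adl K, pureFnM K 𝔫 P f₀ F (g⁻¹ * unip K x * torK K α ^ j * g')
      = (if OutsideUM K 𝔫 P (k₁ g g' * upperGL (c₁ g g' * T1.ratUnit K α ^ j) (c₂ g g')
            ((a g g' : Adl K) * x + r) * k' g g') then (1 : ℂ) else 0)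
        * (∏ v ∈ P, f₀ v (upperGL (finU K v (c₁ g g' * T1.ratUnit K α ^ j))
            (finU K v (c₂ g g')) (finHom K v ((a g g' : Adl K) * x + r))))
        * ∏ w : InfinitePlace K, F w (upperGL (infU K w (c₁ g g' * T1.ratUnit K α ^ j))
            (infU K w (c₂ g g')) (infHom K w ((a g g' : Adl K) * x + r))) := by
    intro x
    rw [hr x]
    exact h2 𝔫 P f₀ F hf₀ hF (k₁ g g') (k' g g') (hk₁ g g') (hk' g g') _ _ _
  beta_reduce
  rw [pureCoordM_shift K P A β (fun v => ordA K v (c₁ g g')) (fun v => ordA K v (c₂ g g'))]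
  by_cases hex : ∃ (j : ℤ) (X : Adl K), OutsideUM K 𝔫 P
      (k₁ g g' * upperGL (c₁ g g' * T1.ratUnit K α ^ j) (c₂ g g') X * k' g g')
  · rw [if_pos hex]
    obtain ⟨j₀, X₀, hX₀⟩ := hex
    -- the condition outside `S'` is the indicator of a coset
    have hind : ∀ X : Adl K,
        (if OutsideUM K 𝔫 P (k₁ g g' * upperGL (c₁ g g' * T1.ratUnit K α ^ j) (c₂ g g') X
            * k' g g') then (1 : ℂ) else 0)
          = (outGrpM K 𝔫 P).indicator (fun _ => (1 : ℂ)) (X - X₀) := by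
      intro X
      have hiff := h3 𝔫 P e a₀ α hfr (k₁ g g') (k' g g') (hk₁ g g') (hk' g g')
        (c₁ g g') (c₂ g g') j₀ j X₀ X hX₀
      by_cases hO : OutsideUM K 𝔫 P (k₁ g g' * upperGL (c₁ g g' * T1.ratUnit K α ^ j)
          (c₂ g g') X * k' g g')
      · rw [if_pos hO, Set.indicator_of_mem (hiff.1 hO)]
      · rw [if_neg hO, Set.indicator_of_notMem (fun h => hO (hiff.2 h))]
    -- the local functions
    set φ₀ : ∀ v : HeightOneSpectrum (𝓞 K), v.adicCompletion K → ℂ := fun v x =>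
      f₀ v (upperGL (finU K v (c₁ g g' * T1.ratUnit K α ^ j)) (finU K v (c₂ g g'))
        (x + finHom K v X₀)) with hφ₀
    set φ : InfinitePlace K → ℂ → ℂ := fun w z =>
      F w (upperGL (infU K w (c₁ g g' * T1.ratUnit K α ^ j)) (infU K w (c₂ g g'))
        (z + infHom K w X₀)) with hφ
    set Q : Adl K → ℂ := fun Y => (outGrpM K 𝔫 P).indicator (fun _ => (1 : ℂ)) Y
      * (∏ v ∈ P, φ₀ v (finHom K v Y)) * ∏ w : InfinitePlace K, φ w (infHom K w Y) with hQ
    have hPQ : (fun x : Adl K => pureFnM K 𝔫 P f₀ F (g⁻¹ * unip K x * torK K α ^ j * g'))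
        = fun x : Adl K => Q ((a g g' : Adl K) * x + (r - X₀)) := by
      funext x
      rw [hP x, hind]
      have e1 : (a g g' : Adl K) * x + r - X₀ = (a g g' : Adl K) * x + (r - X₀) := by ring
      have e2 : (a g g' : Adl K) * x + (r - X₀) + X₀ = (a g g' : Adl K) * x + r := by ring
      simp only [hQ, hφ₀, hφ]
      rw [e1]
      congr 1
      · congr 1
        refine Finset.prod_congr rfl fun v _ => ?_
        rw [← map_add, e2]
      · refine Finset.prod_congr rfl fun w _ => ?_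
        rw [← map_add, e2]
    have hl := fun (v : HeightOneSpectrum (𝓞 K)) (hv : v ∈ P) =>
      h6 𝔫 P e a₀ α hfr v hv (ν₀ v) (hν₀ v) (f₀ v) (A v) (hf₀ v hv) (hR v hv) (hSat v hv)
        (c₁ g g') (c₂ g g') j (finHom K v X₀)
    have hw := fun w : InfinitePlace K =>
      h7 α w (F w) (β w) (hF w) (hAb w) (c₁ g g') (c₂ g g') j (infHom K w X₀)
    obtain ⟨hQi, hQv⟩ := hsplit φ₀ φ (fun v hv => (hl v hv).1) (fun v hv => (hl v hv).2.1)
      (fun w => (hw w).1) (fun w => (hw w).2.1)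
    obtain ⟨hPi, hPv⟩ := hca g g' (r - X₀) Q hQi
    rw [hPQ]
    refine ⟨hPi, ?_⟩
    rw [hPv, hQv]
    have hwv : ∀ w : InfinitePlace K, ∫ z : ℂ, φ w z
        = ((‖((infU K w (c₁ g g') : ℂˣ) : ℂ)‖ * ‖((infU K w (c₂ g g') : ℂˣ) : ℂ)‖
              * (w (α : K)) ^ j : ℝ) : ℂ)
          * β w (Real.log ‖((infU K w (c₁ g g') : ℂˣ) : ℂ)‖ + j * Real.log (w (α : K)),
              Real.log ‖((infU K w (c₂ g g') : ℂˣ) : ℂ)‖) := fun w => (hw w).2.2
    simp_rw [hwv]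
    rw [Finset.prod_congr rfl fun v hv => (hl v hv).2.2]
    have hpf : (∏ v ∈ P, (((Ideal.absNorm v.asIdeal : ℝ) ^ (-(e v : ℝ) / 2) : ℝ) : ℂ))
        * ∏ w : InfinitePlace K, ((w (α : K) : ℝ) : ℂ) = 1 := by
      rw [← Complex.ofReal_prod, ← Complex.ofReal_prod, ← Complex.ofReal_mul, hprodform,
        Complex.ofReal_one]
    have key := top_algebraM (HeightOneSpectrum (𝓞 K)) (InfinitePlace K) P (ca g g') c₀
      (fun v => ((ν₀ v (v.adicCompletionIntegers K : Set (v.adicCompletion K))).toReal : ℂ))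
      (fun v => (((Ideal.absNorm v.asIdeal : ℝ) ^
          (-(((ordA K v (c₁ g g') + ordA K v (c₂ g g') : ℤ) : ℝ)) / 2) : ℝ) : ℂ))
      (fun v => (((Ideal.absNorm v.asIdeal : ℝ) ^ (-(e v : ℝ) / 2) : ℝ) : ℂ))
      (fun v => A v (ordA K v (c₁ g g') + j * e v, ordA K v (c₂ g g')))
      (fun w => ((‖((infU K w (c₁ g g') : ℂˣ) : ℂ)‖
          * ‖((infU K w (c₂ g g') : ℂˣ) : ℂ)‖ : ℝ) : ℂ))
      (fun w => ((w (α : K) : ℝ) : ℂ))
      (fun w => β w (Real.log ‖((infU K w (c₁ g g') : ℂˣ) : ℂ)‖ + j * Real.log (w (α : K)),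
          Real.log ‖((infU K w (c₂ g g') : ℂˣ) : ℂ)‖)) j hpf
    rw [← key]
    congr 2
    · congr 1
      refine Finset.prod_congr rfl fun v _ => ?_
      push_cast
      ring
    · refine Finset.prod_congr rfl fun w _ => ?_
      push_cast
      ring
  · rw [if_neg hex, zero_mul]
    have hzero : (fun x : Adl K => pureFnM K 𝔫 P f₀ F (g⁻¹ * unip K x * torK K α ^ j * g'))
        = fun _ => (0 : ℂ) := by
      funext x
      rw [hP x, if_neg (fun h => hex ⟨j, _, h⟩)]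
      simp
    rw [hzero]
    exact ⟨integrable_zero _ _ _, integral_zero _ _⟩

end Fermat.Agent.LT.T3.M

end
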