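import Fermat.Agent.LT.T3.ClosedT1
import Fermat.Agent.LT.T3.M.Top
import Fermat.Agent.LT.T3.M.NIntTop

/-!
# Row LT, tower T3, station T3.18M (architect helper14): STATE OF THE STATION

OFF-MAIN.  Complete proofs, nothing assumed.  On the closed tower T3 (`ClosedT1.lean`,
`origin/helper14@21d8599e0`) and the closed tower T1 (`T1.t1Out`, helper54).

`OpenM K` = the leaves of the station which are still open (registry rows 1802--1810).
Everything else is discharged here: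

* REUSED from the closed single-place station, as they are: `AS.SatakeLocC` (helper263),
  `AS.AbelCplxSmoothC` (helper736 / helper315 / helper984 ...), N.1 `IwasawaFormC` (helper543),
  N.4 `AffineC` (helper162), N.7 `LocValInfC` (helper800), `EKKillC` (helper893), `EKStarC`
  (helper904), `InScalarUnifC`, `InAddHaarC` (T1).
* PROVED tops: `nIntM_of`, `abelSatakeSmoothM_of`, `ekExistSmoothM_of`, `ekOpExistSmoothM_of`.

* `ekOpExistSmoothM_of_open : OpenM K → EKOpExistSmoothMC K`,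
* `exists_testFn_T5_M_of_open : OpenM K → …` = the output in the vocabulary of T5 (Spec v4),
  with the hypotheses of `T7.GoodEKM` VERBATIM.
-/

set_option autoImplicit false
set_option linter.style.haveILetI false

open IsDedekindDomain NumberField MeasureTheory
open Fermat.Agent.LT.H556.A0

noncomputable section

namespace Fermat.Agent.LT.T3.M

open Fermat.Agent.LT.T3.AS

variable (K : Type) [Field K] [NumberField K]

/-- THE OPEN PART of station T3.18M. -/
structure OpenM : Prop where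
  /-- M.1 (registry 1802). -/
  core : EKCoreC
  /-- M.2 (registry 1803). -/
  ftPure : FtPureC
  /-- M.3 (registry 1804). -/
  pureReg : PureRegMC K
  /-- M.4 (registry 1805). -/
  rOp : ROpMC K
  /-- M.5 (registry 1806). -/
  pureUpper : PureUpperMC K
  /-- M.6 (registry 1807). -/
  outsideCoset : OutsideCosetMC K
  /-- M.7 (registry 1808). -/
  split : SplitMC K
  /-- M.8 (registry 1809). -/
  locValFin : LocValFinMC K
  /-- M.9 (registry 1810). -/
  prodForm : ProdFormMC K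

/-- The multi-place `N`-integral from the open leaves. -/
theorem nIntM_of_open (O : OpenM K) : NIntMC K :=
  nIntM_of K (H543.iwasawaFormC_of_h543 K (T1.t1Out K).iwasawa) O.pureUpper O.outsideCoset
    (H162.affineC162 K (T1.t1Out K).locComp) O.split O.locValFin (H800.locValInfC800 K)
    O.prodForm

/-- The multi-place Abel--Satake pair from the open leaves. -/
theorem abelSatakeSmoothM_of_open (O : OpenM K) : AbelSatakeSmoothMC K :=
  abelSatakeSmoothM_of K (satakeLoc_closed K) abelCplxSmooth_closed O.ftPure O.pureReg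
    (nIntM_of_open K O) O.rOp

/-- The multi-place EK function, integral form, from the open leaves. -/
theorem ekExistSmoothM_of_open (O : OpenM K) : EKExistSmoothMC K :=
  ekExistSmoothM_of K (abelSatakeSmoothM_of_open K O) O.core (inScalarUnif_u K)

/-- **THE OUTPUT of station T3.18M from the open leaves.** -/
theorem ekOpExistSmoothM_of_open (O : OpenM K) : EKOpExistSmoothMC K :=
  ekOpExistSmoothM_of K (ekKill_u K) (ekStar_u K) (ekExistSmoothM_of_open K O) (inAddHaar_u K)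

/-- **The output of station T3.18M in the vocabulary of T5** (Spec v4 of helper32), with the
hypotheses of `T7.GoodEKM` VERBATIM: `P` non-empty, `v ∤ 𝔫` and `0 < e v` for `v ∈ P`,
`(a₀) = ∏_{v ∈ P} 𝔭_v^{e_v}`, `a₀ - 1 ∈ 𝔫`. -/
theorem exists_testFn_T5_M (h : EKOpExistSmoothMC K) (hK : ∀ w : InfinitePlace K, w.IsComplex)
    (μ : @Measure (G K) (borel (G K)))
    (hμ : @Measure.IsHaarMeasure (G K) _ _ (borel (G K)) μ)
    (𝔫 : Ideal (𝓞 K)) (h𝔫 : 𝔫 ≠ ⊥) (P : Finset (HeightOneSpectrum (𝓞 K)))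
    (e : HeightOneSpectrum (𝓞 K) → ℕ) (a₀ : 𝓞 K) (hP : P.Nonempty)
    (hPe : ∀ v ∈ P, ¬ v.asIdeal ∣ 𝔫 ∧ 0 < e v)
    (hspan : Ideal.span {a₀} = ∏ v ∈ P, v.asIdeal ^ e v) (hmem : a₀ - 1 ∈ 𝔫) :
    ∃ f : G K → ℂ, T5.IsTestFn 𝔫 T5.trivType f ∧ T5.IsEK μ f ∧ T5.IsEK μ (T5.adjointFn f) ∧
      IsSuppAtM K 𝔫 P f ∧
      ∃ c : (HeightOneSpectrum (𝓞 K) → ℂ) → (HeightOneSpectrum (𝓞 K) → ℂ) → ℂ,
        (∀ a b : HeightOneSpectrum (𝓞 K) → ℂ, GoodParamM K P e a b → c a b ≠ 0) ∧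
        ∀ φ : G K → ℂ, IsSph0Level K 𝔫 φ → ∀ a b : HeightOneSpectrum (𝓞 K) → ℂ,
          (∀ v ∈ P, IsHeckeEigenAt φ v (a v) (b v)) →
          ∀ g : G K, T5.Rconv μ f φ g = c a b * φ g := by
  obtain ⟨f, h1, h2, h3, h4, h5, h6, h7, c, hc, hact⟩ :=
    h hK μ hμ 𝔫 P e a₀ h𝔫 hP hPe hspan hmem
  refine ⟨f, isTestFn_T5 K h1 h2 h3 h6, isEK_T5 K h4, isEK_T5 K h5, h7, c, hc, ?_⟩
  intro φ hφ a b he g
  rw [← hact φ hφ a b he g]
  unfold Rop T5.Rconv
  refine integral_congr_ae (Filter.Eventually.of_forall fun y => ?_)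
  exact mul_comm _ _

/-- The output in the vocabulary of T5 from the open leaves. -/
theorem exists_testFn_T5_M_of_open (O : OpenM K) (hK : ∀ w : InfinitePlace K, w.IsComplex)
    (μ : @Measure (G K) (borel (G K)))
    (hμ : @Measure.IsHaarMeasure (G K) _ _ (borel (G K)) μ)
    (𝔫 : Ideal (𝓞 K)) (h𝔫 : 𝔫 ≠ ⊥) (P : Finset (HeightOneSpectrum (𝓞 K)))
    (e : HeightOneSpectrum (𝓞 K) → ℕ) (a₀ : 𝓞 K) (hP : P.Nonempty)
    (hPe : ∀ v ∈ P, ¬ v.asIdeal ∣ 𝔫 ∧ 0 < e v)
    (hspan : Ideal.span {a₀} = ∏ v ∈ P, v.asIdeal ^ e v) (hmem : a₀ - 1 ∈ 𝔫) :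
    ∃ f : G K → ℂ, T5.IsTestFn 𝔫 T5.trivType f ∧ T5.IsEK μ f ∧ T5.IsEK μ (T5.adjointFn f) ∧
      IsSuppAtM K 𝔫 P f ∧
      ∃ c : (HeightOneSpectrum (𝓞 K) → ℂ) → (HeightOneSpectrum (𝓞 K) → ℂ) → ℂ,
        (∀ a b : HeightOneSpectrum (𝓞 K) → ℂ, GoodParamM K P e a b → c a b ≠ 0) ∧
        ∀ φ : G K → ℂ, IsSph0Level K 𝔫 φ → ∀ a b : HeightOneSpectrum (𝓞 K) → ℂ,
          (∀ v ∈ P, IsHeckeEigenAt φ v (a v) (b v)) →
          ∀ g : G K, T5.Rconv μ f φ g = c a b * φ g :=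
  exists_testFn_T5_M K (ekOpExistSmoothM_of_open K O) hK μ hμ 𝔫 h𝔫 P e a₀ hP hPe hspan hmem

end Fermat.Agent.LT.T3.M

end
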